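import Fermat.Agent.BAD.X0.Count
import Fermat.Agent.BAD.Engine.Mul
import Fermat.Agent.BAD.Mono.Bound

/-!
# Every glued point has order twelve

Without elliptic points the number of glued points is at most `(q - 1) ψ (M) / 12`, because the
functions with bounded poles reduce injectively to glued pairs; as the total order of `hbar` is
`(q - 1) ψ (M)` and no order exceeds `12`, all of them are `12`.
-/

set_option autoImplicit false

attribute [local instance 10000] SubalgebraClass.toAlgebra HahnSeries.powerSeriesAlgebra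

noncomputable section

open ModularCurve AlgebraicCurve

namespace Fermat.BAD.Inst

open Fermat.FF Fermat.MC Fermat.JAC.X0 Fermat.RED.Model Fermat.BAD.X0

local notation "Qb" => AlgebraicClosure ℚ

variable (M q : ℕ) [NeZero M] [NeZero q] [Fact q.Prime] (hq : q.Prime) (hqM : ¬ q ∣ M)
variable [FF.IsFunctionField Qb (FN (M * q) Qb)] [FF.IsFunctionField Qb (FN M Qb)]
variable {A : ValuationSubring (AlgebraicClosure ℚ)} (hA : A.LiesOverPrime q)
  [IsAlgClosed (IsLocalRing.ResidueField A)] [CharP (IsLocalRing.ResidueField A) q]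
  [FF.IsFunctionField (IsLocalRing.ResidueField A) (FX (IsLocalRing.ResidueField A) M)]

local notation "kA" => IsLocalRing.ResidueField A

variable (X : Degen (IsLocalRing.residue A) (emb M q hq hqM)
  (modularFunctionFieldFullC (IsLocalRing.ResidueField A) M))

/-- **The order at each glued point is twelve.** -/
theorem ord_hbar_eq (hS : X.S = SS M q hq hqM hA) (hne : NoElliptic M) {s : Place kA (FX kA M)}
    (hs : s ∈ SS M q hq hqM hA) :
    s.ord (hbar M q hq hqM hA) = 12 := by
  classical
  obtain ⟨hdeg, hsub⟩ := degree_zeroDiv_hbar M q hq hqM hA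
  have h0 := X.card_S_add_genus_le
  rw [hS] at h0
  set S := SS M q hq hqM hA
  have hgF : (genusFF Qb (FN (M * q) Qb) : ℚ) = genusFormula (M * q) := MC.genusFF_FN (M * q) embC
  have hgM : (genusFF Qb (FN M Qb) : ℚ) = genusFormula M := MC.genusFF_FN M embC
  have hne' : NoElliptic (M * q) := hne.of_dvd (dvd_mul_right M q)
  rw [genusFormula, hne'.two, hne'.three, dedekindPsi_mul_prime M q hq, if_neg hqM] at hgF
  rw [genusFormula, hne.two, hne.three, ← genusFF_reduced M q hq hqM hA] at hgM
  have hc : (2 : ℚ) * cuspCount M ≤ cuspCount (M * q) := by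
    exact_mod_cast two_mul_cuspCount_le M q hq hqM
  have h0' : (S.card : ℚ) + 2 * (genusFF kA (FX kA M) : ℚ) ≤
      (genusFF Qb (FN (M * q) Qb) : ℚ) + 1 := by exact_mod_cast h0
  push_cast at hgF hgM
  -- the genus formulas bound the number of glued points
  have hcard : 12 * (S.card : ℤ) ≤ ((q - 1) * dedekindPsi M : ℕ) := by
    have : (12 : ℚ) * (S.card : ℚ) ≤ (((q - 1) * dedekindPsi M : ℕ) : ℚ) := by
      push_cast [Nat.cast_sub hq.one_le]
      nlinarith
    exact_mod_cast this
  have hsum : Divisor.degree (zeroDiv kA (hbar M q hq hqM hA)) =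
      ∑ v ∈ S, v.ord (hbar M q hq hqM hA) := by
    rw [Fermat.BAD.degree_eq_sum _ S (fun v hv => hsub v (by
      simp only [Finsupp.mem_support_iff, zeroDiv_apply] at hv
      omega))]
    refine Finset.sum_congr rfl fun v hv => ?_
    rw [zeroDiv_apply, max_eq_left ((mem_SS M q hq hqM hA).mp hv).2.le]
  -- so none of the orders, all at most twelve, can be smaller
  by_contra hne12
  have hlt : ∑ v ∈ S, v.ord (hbar M q hq hqM hA) < ∑ _v ∈ S, (12 : ℤ) :=
    Finset.sum_lt_sum (fun v hv => ord_hbar_le M q hq hqM hA hv)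
      ⟨s, hs, lt_of_le_of_ne (ord_hbar_le M q hq hqM hA hs) hne12⟩
  rw [Finset.sum_const, nsmul_eq_mul, ← hsum, hdeg] at hlt
  linarith

end Fermat.BAD.Inst

end
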