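import Fermat.Agent.BAD.Inst.Pairs
import Fermat.Agent.BAD.X0.Count

/-!
# Rational functions of every scale at the glued points

A rational integral function vanishing at the component at `0` and vanishing exactly once at a
given supersingular point, and the unit of level `q`, give for every `i` a rational `U` with
`U` of order `-i` on one component and `q ^ i U` of order `i` on the other one.
-/

set_option autoImplicit false
set_option linter.unusedSectionVars false

attribute [local instance 10000] SubalgebraClass.toAlgebra HahnSeries.powerSeriesAlgebra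

noncomputable section

open ModularCurve AlgebraicCurve

namespace Fermat.BAD.Degen

open Fermat.FF Fermat.RED Fermat.RED.Model Fermat.BAD.X0

local notation "Qb" => AlgebraicClosure ℚ

variable {A : ValuationSubring (AlgebraicClosure ℚ)} [IsAlgClosed (IsLocalRing.ResidueField A)]

local notation "kA" => IsLocalRing.ResidueField A

variable {F : Type} [Field F] [Algebra (AlgebraicClosure ℚ) F] [FF.IsFunctionField Qb F]
variable {ι : Bool → F →+* LaurentSeries (AlgebraicClosure ℚ)}
  {K : IntermediateField (IsLocalRing.ResidueField A) (LaurentSeries (IsLocalRing.ResidueField A))}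
  [FF.IsFunctionField (IsLocalRing.ResidueField A) K]
variable (X : Degen (IsLocalRing.residue A) ι K)

/-- The reduction of a function whose expansion is a given integral series. -/
theorem coe_red_of_coeffMap (b : Bool) {f : F} {y : LaurentSeries A}
    (h : ι b f = coeffMap A.subtype y) :
    (X.red b f : LaurentSeries kA) = coeffMap (IsLocalRing.residue A) y := by
  have hi : ι b f ∈ intSeries A := ⟨y, h.symm⟩
  rw [X.coe_red, gRed_of_int hi, redF_of_mem hi]
  exact (congrArg _ (Subtype.ext h)).trans (redHom_coeffMap (IsLocalRing.residue A) y ⟨_, rfl⟩)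

/-- Combinations of rational integral functions with natural coefficients are rational integral. -/
theorem ratIntOf_natComb {m : ℕ} {α : Type*} (T : Finset α) (n : α → ℕ) {g : α → F}
    (hg : ∀ i, g i ∈ X.ratIntOf m) :
    ∑ i ∈ T, (n i : Qb) • g i ∈ X.ratIntOf m := by
  refine ⟨Submodule.sum_mem _ fun i _ => Submodule.smul_mem _ _ (hg i).1, fun b k => ?_⟩
  choose a ha haQ using fun i => (hg i).2 b k
  refine ⟨∑ i ∈ T, (n i : A) * a i, ?_, ?_⟩
  · rw [map_sum, HahnSeries.coeff_sum, AddSubmonoidClass.coe_finsetSum]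
    refine Finset.sum_congr rfl fun i _ => ?_
    rw [RatData.coeff_smul (X := X), ha, MulMemClass.coe_mul]
    push_cast
    rfl
  · choose r hr using haQ
    refine ⟨∑ i ∈ T, (n i : ℚ) * r i, ?_⟩
    rw [map_sum, AddSubmonoidClass.coe_finsetSum]
    refine Finset.sum_congr rfl fun i _ => ?_
    rw [map_mul, map_natCast, hr, MulMemClass.coe_mul]
    push_cast
    rfl

/-- A glued pair vanishing exactly once at `s` on one component and identically on the other. -/
theorem exists_glue_pair_ord_one {s : Place kA K} (hs : s ∈ X.S) :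
    ∃ z : K, z ≠ 0 ∧ s.ord z = 1 ∧
      (fun b => cond b z 0 : Bool → K) ∈ X.glueSp (fun _ => 1) X.N0 := by
  classical
  set m := X.N0
  set E := m • X.B - ∑ t ∈ X.S, Finsupp.single t (1 : ℤ) with hE
  have hm : (m : ℤ) ≤ Divisor.degree (m • X.B) := X.le_degree_nsmul_B m
  obtain ⟨z, hz, hz0, hzord⟩ := exists_exact_ord (D := E) {s} (by
    rw [hE, map_sub, degree_single_sum]
    have : 2 * genusFF kA K + X.S.card + 2 ≤ m := by
      change 2 * genusFF kA K + X.S.card + 2 ≤
        2 * genusFF kA K + 2 * genusFF Qb (F) + 2 * X.S.card + 2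
      omega
    have h1 : ((2 * genusFF kA K + X.S.card + 2 : ℕ) : ℤ) ≤ m := by exact_mod_cast this
    push_cast at h1
    change 2 * (genusFF kA K : ℤ) ≤ Divisor.degree (m • X.B) - (X.S.card : ℤ)
    omega)
  have hEle : E ≤ m • X.B := sub_le_self _ (Finset.sum_nonneg fun t _ =>
    Finsupp.le_def.mpr fun v => by
      rw [Finsupp.coe_zero, Pi.zero_apply, Finsupp.single_apply]; split <;> norm_num)
  refine ⟨z, hz0, ?_, X.mem_glueSp.mpr ⟨fun b => ?_, fun t ht => ?_⟩⟩
  · rw [hzord s (Finset.mem_singleton_self s), hE, Finsupp.sub_apply,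
      X.nsmul_B_eq_zero m (X.S_B s hs), sum_single_apply, if_pos hs]
    norm_num
  · cases b
    · exact zero_mem _
    · exact riemannRochSpace_mono hEle hz
  · change FF.evalAt t z = 1 * FF.evalAt _ (0 : K)
    rw [show FF.evalAt (X.Qf t) (0 : K) = 0 by
      simpa using FF.evalAt_algebraMap (X.Qf t) (0 : kA), mul_zero]
    have h1 := mem_riemannRochSpace.mp hz t
    rw [hE, Finsupp.sub_apply, X.nsmul_B_eq_zero m (X.S_B t ht), sum_single_apply, if_pos ht] at h1
    exact (evalAt_eq_zero_iff (h1.mono (by norm_num))).mpr (h1.mono (by norm_num))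

/-- An element of the span of the reductions of rational integral functions is a combination of such
reductions with coefficients independent over the prime field. -/
theorem exists_ratIntOf_expansion {q : ℕ} [Fact q.Prime] [CharP kA q] {m : ℕ} {P : Bool → K}
    (hP : P ∈ Submodule.span kA ((fun g b => X.red b g) '' X.ratIntOf m)) :
    ∃ (r : ℕ) (e : Fin r → kA) (w : Fin r → F), (∀ l, w l ∈ X.ratIntOf m) ∧
      (∀ x : Fin r → ℕ, ∑ l, (x l : kA) * e l = 0 → ∀ l, (x l : kA) = 0) ∧
      ∀ b, P b = ∑ l, e l • X.red b (w l) := by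
  obtain ⟨n, c, v, hcv⟩ := Submodule.mem_span_set'.mp hP
  choose g hg hgv using fun i => (v i).2
  -- a basis over the prime field of the span of the coefficients
  let := ZMod.algebra kA q
  set V := Submodule.span (ZMod q) (Set.range c)
  have : FiniteDimensional (ZMod q) V :=
    FiniteDimensional.span_of_finite _ (Set.finite_range c)
  let e := Module.finBasis (ZMod q) V
  -- write the coefficients in the basis with natural number entries
  set a : Fin n → Fin (Module.finrank (ZMod q) V) → ZMod q := fun i l =>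
    e.repr ⟨c i, Submodule.subset_span ⟨i, rfl⟩⟩ l
  refine ⟨_, fun l => (e l : kA), fun l => ∑ i, ((a i l).val : Qb) • g i,
    fun l => X.ratIntOf_natComb _ _ hg, fun x hx l => ?_, fun b => ?_⟩
  · have h2 : ∑ l, (x l : ZMod q) • e l = 0 := Subtype.ext (by
      simpa [Algebra.smul_def] using hx)
    rw [← map_natCast (algebraMap (ZMod q) kA) (x l),
      Fintype.linearIndependent_iff.mp e.linearIndependent _ h2 l, map_zero]
  have hc : ∀ i, c i = ∑ l, algebraMap (ZMod q) kA (a i l) * (e l : kA) := fun i => by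
    have h := congrArg V.subtype (e.sum_repr ⟨c i, Submodule.subset_span ⟨i, rfl⟩⟩)
    rw [map_sum] at h
    refine (Eq.trans ?_ h).symm
    exact Finset.sum_congr rfl fun l _ => by rw [map_smul, Algebra.smul_def]; rfl
  have hwred : ∀ l, X.red b (∑ i, ((a i l).val : Qb) • g i) =
      ∑ i, (((a i l).val : ℕ) : kA) • X.red b (g i) := fun l => by
    have hcomb := X.red_comb (w := g) (fun i => X.mem_O.mpr fun b =>
      mem_gInt_of_int (X.ratIntOf_int (hg i) b)) (fun i => ((a i l).val : A)) b
    simp only [map_natCast] at hcomb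
    push_cast at hcomb
    exact hcomb
  -- regroup the combination by basis elements
  have h1 := congrFun hcv b
  rw [Finset.sum_apply] at h1
  rw [← h1]
  simp only [hwred, Finset.smul_sum, Pi.smul_apply, ← hgv, hc, Finset.sum_smul, smul_smul]
  rw [Finset.sum_comm]
  refine Finset.sum_congr rfl fun l _ => Finset.sum_congr rfl fun i _ => ?_
  rw [← map_natCast (algebraMap (ZMod q) kA), ZMod.natCast_zmod_val, mul_comm]

/-- The coefficients of the reduction of a rational integral function lie in the prime field. -/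
theorem exists_natCast_coeff_red {q : ℕ} [Fact q.Prime] [CharP kA q] (hq : q.Prime)
    (hA : A.LiesOverPrime q) {m : ℕ} {w : F} (hw : w ∈ X.ratIntOf m) (b : Bool) (k : ℤ) :
    ∃ n : ℕ, (X.red b w : LaurentSeries kA).coeff k = (n : kA) := by
  let := ZMod.algebra kA q
  obtain ⟨a', ha', haQ⟩ := hw.2 b k
  rw [X.coe_red_int (X.ratIntOf_int hw b),
    show (⟨_, mem_intSeries_iff.mp (X.ratIntOf_int hw b) k⟩ : A) = a' from Subtype.ext ha']
  have h := (X0.rat_residue_frobenius hq hA haQ).1
  rw [frobenius_def] at h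
  obtain ⟨x, hx⟩ := (bot_le : (⊥ : Subfield kA) ≤ (algebraMap (ZMod q) kA).fieldRange)
    ((Subfield.mem_bot_iff_pow_eq_self kA q).mpr h)
  exact ⟨x.val, by rw [← hx, ← map_natCast (algebraMap (ZMod q) kA), ZMod.natCast_zmod_val]⟩

/-- A rational integral function whose reduction vanishes once at a glued point and identically on
the other component. -/
theorem exists_ratIntOf_ord_one {q : ℕ} [Fact q.Prime] [CharP kA q] (hq : q.Prime)
    (hA : A.LiesOverPrime q) {s : Place kA K} (hs : s ∈ X.S)
    (hspan : X.glueSp (fun _ => 1) X.N0 ≤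
      Submodule.span kA ((fun g b => X.red b g) '' X.ratIntOf X.N0)) :
    ∃ (m : ℕ) (g : F), g ∈ X.ratIntOf m ∧ X.red false g = 0 ∧
      s.ord (X.red true g) = 1 := by
  obtain ⟨z, hz0, hzs, hP⟩ := X.exists_glue_pair_ord_one hs
  -- independence over the prime field makes every `w l` vanish on the component at `0`
  obtain ⟨r, e, w, hw, hind, hsum⟩ := X.exists_ratIntOf_expansion (q := q) (hspan hP)
  have hfalse : ∀ l, X.red false (w l) = 0 := fun l => by
    refine Subtype.ext (HahnSeries.ext (funext fun k => ?_))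
    choose x hx using fun l => X.exists_natCast_coeff_red hq hA (hw l) false k
    have h1 := congrArg (fun z : K => (z : LaurentSeries kA).coeff k) (hsum false)
    simp only [cond_false, AddSubmonoidClass.coe_finsetSum, HahnSeries.coeff_sum,
      X.coe_smul_series, hx, mul_comm (e _)] at h1
    rw [hx l, hind x (by simpa using h1.symm) l]
    simp
  have hone : ∀ l, OrdGE s (X.red true (w l)) 1 := fun l => by
    have hO : w l ∈ X.O := X.mem_O.mpr fun b => mem_gInt_of_int (X.ratIntOf_int (hw l) b)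
    have h1 := X.glue_red hO (hw l).1 hs
    rw [hfalse l, show FF.evalAt (X.Qf s) (0 : K) = 0 by
      simpa using FF.evalAt_algebraMap (X.Qf s) (0 : kA)] at h1
    exact (evalAt_eq_zero_iff (X.ordGE_S (X.red_mem_pole hO (hw l).1) (X.S_B s hs))).mp h1
  obtain ⟨l, hl⟩ : ∃ l, ¬ OrdGE s (X.red true (w l)) 2 := by
    by_contra! h
    have h2 : OrdGE s z 2 := by
      rw [show z = _ from hsum true]
      exact OrdGE.sum fun l _ => (h l).smul _
    have := h2.le_ord hz0
    omega
  refine ⟨X.N0, w l, hw l, hfalse l, ?_⟩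
  rw [ordGE_iff, not_or] at hl
  have := (hone l).le_ord hl.1
  omega

/-- A rational integral function reducing to zero on the component at `0` is `q` times an integral
one there. -/
theorem int_div_of_red_eq_zero {q : ℕ} [Fact q.Prime] [CharP kA q] (hq : q.Prime)
    (hA : A.LiesOverPrime q) {m : ℕ} {g : F} (hg : g ∈ X.ratIntOf m)
    (h0 : X.red false g = 0) : ι false ((q : Qb)⁻¹ • g) ∈ intSeries A := by
  obtain ⟨y, hy⟩ := id (X.ratIntOf_int hg false)
  have hc : ∀ n, ((y.coeff n : A) : Qb) = (ι false g).coeff n := fun n => by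
    rw [← hy, coeffMap_coeff]; rfl
  obtain ⟨z, hz⟩ := X0.exists_eq_q_mul hq hA (y := y) (fun n => by
      obtain ⟨a, ha, haQ⟩ := hg.2 false n
      rwa [hc, ha]) (by
    ext n
    rw [coeffMap_coeff, HahnSeries.coeff_zero]
    have := X.coe_red_int (X.ratIntOf_int hg false) n
    rw [h0] at this
    rw [show y.coeff n = ⟨_, mem_intSeries_iff.mp (X.ratIntOf_int hg false) n⟩ from
      Subtype.ext (hc n), ← this]
    rfl)
  refine ⟨z, ?_⟩
  rw [X0.emb_smul (X.ι_algebraMap false), ← hy, hz, map_mul, map_natCast, ← mul_assoc,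
    show (q : LaurentSeries Qb) = algebraMap Qb (LaurentSeries Qb)
      (q : Qb) from (map_natCast _ q).symm,
    ← map_mul, inv_mul_cancel₀ (Nat.cast_ne_zero.mpr hq.ne_zero), map_one, one_mul]

/-- The scale of `g ^ r * u' ^ j` at the component at `0`. -/
theorem zpow_smul_pow_mul_pow {c : Qb} (hc : c ≠ 0) {g u : F} {i : ℤ} {r j : ℕ}
    (hr : (r : ℤ) = 12 * (j : ℤ) - i) :
    c ^ i • (g ^ r * ((c ^ 12)⁻¹ • u) ^ j) = (c⁻¹ • g) ^ r * u ^ j := by
  simp only [smul_pow, mul_smul_comm, smul_mul_assoc, smul_smul]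
  congr 1
  rw [inv_pow, inv_pow, ← pow_mul, ← zpow_natCast, ← zpow_natCast, ← zpow_neg, ← zpow_neg,
    ← zpow_add₀ hc]
  congr 1
  push_cast
  omega

/-- If `g` vanishes once at `s` and `u` has scale twelve there, `g / q` has a simple pole at the
point glued to `s`. -/
theorem ord_red_div_eq_neg_one {q : ℕ} {m cu : ℕ} {g u u' : F} {h : K} {s : Place kA K}
    (hs : s ∈ X.S) (hgA : g ∈ riemannRochSpace (m • X.A0))
    (hgt : g ∈ gInt (IsLocalRing.residue A) (ι true))
    (hg'f : (q : Qb)⁻¹ • g ∈ gInt (IsLocalRing.residue A) (ι false))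
    (hgord : s.ord (X.red true g) = 1) (hu' : u' = ((q : Qb) ^ 12)⁻¹ • u)
    (hu : u' ∈ riemannRochSpace (cu • X.A0)) (hut : u' ∈ gInt (IsLocalRing.residue A) (ι true))
    (huf : u ∈ gInt (IsLocalRing.residue A) (ι false)) (hrt : X.red true u' = h⁻¹)
    (hrf : X.red false u = h) (hh0 : h ≠ 0) (hh : s.ord h = 12) (hhQ : (X.Qf s).ord h = 12) :
    X.red false ((q : Qb)⁻¹ • g) ≠ 0 ∧ (X.Qf s).ord (X.red false ((q : Qb)⁻¹ • g)) = -1 := by
  set g' := (q : Qb)⁻¹ • g
  set z0 := X.red false g'
  have hz : X.red true g ≠ 0 := fun e => by rw [e, Place.ord_zero] at hgord; omega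
  -- glue `g ^ 12 u'`, which is `(g / q) ^ 12 u` on the other component
  have hG : g ^ 12 * u' ∈ riemannRochSpace ((12 * m + cu) • X.A0) := by
    rw [add_smul, mul_smul]
    exact mem_riemannRochSpace.mpr fun v => (((mem_riemannRochSpace.mp hgA v).pow 12).mul
      (mem_riemannRochSpace.mp hu v)).mono (by
        simp only [Finsupp.add_apply, Finsupp.smul_apply, nsmul_eq_mul]
        push_cast
        ring_nf
        exact le_rfl)
  have hGeq : g ^ 12 * u' = g' ^ 12 * u := by
    rw [hu', smul_pow, inv_pow, mul_smul_comm, smul_mul_assoc]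
  have hGO : g ^ 12 * u' ∈ X.O := X.mem_O.mpr fun b => by
    cases b
    · rw [hGeq]; exact mul_mem (pow_mem hg'f 12) huf
    · exact mul_mem (pow_mem hgt 12) hut
  have hglue := X.glue_red hGO hG hs
  rw [X.red_mul (pow_mem hgt 12) hut, X.red_pow hgt, hrt, hGeq,
    X.red_mul (pow_mem hg'f 12) huf, X.red_pow hg'f, hrf] at hglue
  have hz0reg : OrdGE (X.Qf s) (z0 ^ 12 * h) 0 := by
    have := X.ordGE_S (X.red_mem_pole (b := false) hGO hG) (X.Qf_B s hs)
    rwa [hGeq, X.red_mul (pow_mem hg'f 12) huf, X.red_pow hg'f,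
      hrf] at this
  have hne : FF.evalAt (X.Qf s) (z0 ^ 12 * h) ≠ 0 := by
    rw [← hglue]
    refine evalAt_ne_zero (mul_ne_zero (pow_ne_zero _ hz) (inv_ne_zero hh0)) ?_
    rw [s.ord_mul (pow_ne_zero _ hz) (inv_ne_zero hh0), ord_pow, s.ord_inv, hgord, hh]
    norm_num
  have hzh : z0 ^ 12 * h ≠ 0 := fun e => hne (by
    rw [e]; simpa using FF.evalAt_algebraMap (X.Qf s) (0 : kA))
  have hz00 : z0 ≠ 0 := fun e => hzh (by rw [e, zero_pow (by norm_num : (12 : ℕ) ≠ 0), zero_mul])
  refine ⟨hz00, ?_⟩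
  have h1 := hz0reg.le_ord hzh
  have h2 : ¬ 1 ≤ (X.Qf s).ord (z0 ^ 12 * h) := fun hle =>
    hne ((evalAt_eq_zero_iff hz0reg).mpr (ordGE_iff.mpr (.inr hle)))
  rw [(X.Qf s).ord_mul (pow_ne_zero _ hz00) hh0, ord_pow, hhQ] at h1 h2
  omega

/-- A function of every scale at a glued point, from a function `g` vanishing once there and a
unit `u` of scale twelve. -/
theorem node_data_of_unit {q : ℕ} [Fact q.Prime] [CharP kA q] (hq : q.Prime)
    (hA : A.LiesOverPrime q) {m cu : ℕ}
    {g u u' : F} {h : K} {s : Place kA K} (hs : s ∈ X.S) (hg : g ∈ X.ratIntOf m)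
    (hg0 : X.red false g = 0) (hgord : s.ord (X.red true g) = 1)
    (hu' : u' = ((q : Qb) ^ 12)⁻¹ • u) (hcu : u ∈ riemannRochSpace (cu • X.A0))
    (hit : ι true u' ∈ intSeries A) (hif : ι false u ∈ intSeries A)
    (hrt : X.red true u' = h⁻¹) (hrf : X.red false u = h) (hh0 : h ≠ 0) (hh : s.ord h = 12)
    (hhQ : (X.Qf s).ord h = 12) (i : ℤ) :
    ∃ (c : ℕ) (U : F), X.IsNodeFun (q : Qb) s i c U ∧
      ∀ φ : SemilinearAut Qb F, φ • g = g → φ • u' = u' → φ • U = U := by
  set g' := (q : Qb)⁻¹ • g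
  have hgt : g ∈ gInt (IsLocalRing.residue A) (ι true) :=
    mem_gInt_of_int (X.ratIntOf_int hg true)
  have hg'f : g' ∈ gInt (IsLocalRing.residue A) (ι false) :=
    mem_gInt_of_int (X.int_div_of_red_eq_zero hq hA hg hg0)
  have hut : u' ∈ gInt (IsLocalRing.residue A) (ι true) :=
    mem_gInt_of_int hit
  have huf : u ∈ gInt (IsLocalRing.residue A) (ι false) :=
    mem_gInt_of_int hif
  have hz : X.red true g ≠ 0 := fun e => by rw [e, Place.ord_zero] at hgord; omega
  have hu : u' ∈ riemannRochSpace (cu • X.A0) := hu' ▸ Submodule.smul_mem _ _ hcu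
  obtain ⟨hz00, hzord⟩ :=
    X.ord_red_div_eq_neg_one hs hg.1 hgt hg'f hgord hu' hu hut huf hrt hrf hh0 hh hhQ
  -- the function of scale `i`
  set j := i.toNat
  set r := (12 * (j : ℤ) - i).toNat
  have hr : (r : ℤ) = 12 * (j : ℤ) - i := Int.toNat_of_nonneg (by
    have := Int.self_le_toNat i
    omega)
  set U := g ^ r * u' ^ j
  have hscale : (q : Qb) ^ i • U = g' ^ r * u ^ j := by
    simp only [U, hu']
    exact zpow_smul_pow_mul_pow (Nat.cast_ne_zero.mpr hq.ne_zero) hr
  refine ⟨r * m + j * cu, U, ⟨?_, ?_, ?_, ?_, ?_⟩, fun φ hφg hφu => ?_⟩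
  · refine mem_riemannRochSpace.mpr fun v => (((mem_riemannRochSpace.mp hg.1 v).pow r).mul
      ((mem_riemannRochSpace.mp hu v).pow j)).mono ?_
    simp only [Finsupp.smul_apply, nsmul_eq_mul]
    push_cast
    ring_nf
    exact le_rfl
  · exact (Degen.Prim.pow (X := X) ⟨hgt, hz⟩ r).mul
      (Degen.Prim.pow (X := X)
        ⟨hut, by rw [hrt]; exact inv_ne_zero hh0⟩ j)
  · rw [hscale]
    exact (Degen.Prim.pow (X := X) ⟨hg'f, hz00⟩ r).mul
      (Degen.Prim.pow (X := X) ⟨huf, by rw [hrf]; exact hh0⟩ j)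
  · rw [X.red_mul (pow_mem hgt r) (pow_mem hut j), X.red_pow hgt, X.red_pow hut,
      hrt, s.ord_mul (pow_ne_zero _ hz)
        (pow_ne_zero _ (inv_ne_zero hh0)), ord_pow, ord_pow, s.ord_inv, hgord, hh]
    omega
  · rw [hscale, X.red_mul (pow_mem hg'f r) (pow_mem huf j), X.red_pow hg'f, X.red_pow huf,
      hrf, (X.Qf s).ord_mul (pow_ne_zero _ hz00) (pow_ne_zero _ hh0),
      ord_pow, ord_pow, hzord, hhQ]
    omega
  · rw [smul_mul', smul_pow', smul_pow', hφg, hφu]

end Fermat.BAD.Degen

namespace Fermat.BAD.Inst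

open Fermat.FF Fermat.MC Fermat.RED Fermat.RED.Model Fermat.BAD.X0

local notation "Qb" => AlgebraicClosure ℚ
local notation "Γℚ" => (AlgebraicClosure ℚ ≃ₐ[ℚ] AlgebraicClosure ℚ)

variable (M q : ℕ) [NeZero M] [NeZero q] [Fact q.Prime] (hq : q.Prime) (hqM : ¬ q ∣ M)
variable [FF.IsFunctionField Qb (FN (M * q) Qb)] [FF.IsFunctionField Qb (FN M Qb)]
variable {A : ValuationSubring (AlgebraicClosure ℚ)} (hA : A.LiesOverPrime q)
  [IsAlgClosed (IsLocalRing.ResidueField A)] [CharP (IsLocalRing.ResidueField A) q]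
  [FF.IsFunctionField (IsLocalRing.ResidueField A) (FX (IsLocalRing.ResidueField A) M)]
variable {rb : Γℚ →* GL (Fin 2) (ZMod q)} {a₀ : ℕ} (F : AtP.LocalField q A rb a₀)

local notation "kA" => IsLocalRing.ResidueField A

variable (X : Degen (IsLocalRing.residue A) (emb M q hq hqM)
  (modularFunctionFieldFullC (IsLocalRing.ResidueField A) M))

/-- `hbar` has the same order at a point and at the glued one, being fixed by Frobenius. -/
theorem ord_Qf_hbar (s : Place kA (FX kA M)) :
    (Qf M q s).ord (hbar M q hq hqM hA) = s.ord (hbar M q hq hqM hA) := by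
  have h : frobAut M q (A := A) • hbar M q hq hqM hA = hbar M q hq hqM hA := by
    refine Subtype.ext ((coe_frobAut_smul M q _).trans ?_)
    change coeffMap (frobenius kA q) (hSer kA q) = hSer kA q
    rw [hSer, map_mul, coeffMap_qExpand, coeffMap_deltaSeries, coeffMap_deltaSeriesInv]
  conv_lhs => rw [← inv_smul_fixed _ h]
  exact SemilinearAut.ord_smul _ _ _

/-- A function regular away from the cusps has bounded poles. -/
theorem exists_mem_rr_A0 {f : FN (M * q) Qb} (hf : f ∈ intClosure Qb (aj M q)) :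
    ∃ c : ℕ, f ∈ riemannRochSpace (c • A0 M q) := by
  obtain ⟨c, hc⟩ := exists_mem_riemannRochSpace_of_intClosure hf
  refine ⟨c, riemannRochSpace_mono (smul_le_smul_of_nonneg_left ?_ (Nat.zero_le c)) hc⟩
  exact le_add_of_nonneg_right fun v => by simp [poleDiv_apply]

/-- The unit divided by `q ^ 12`. -/
def u12 : FN (M * q) Qb := ((q : Qb) ^ 12)⁻¹ • un M q

/-- The expansion of `u12` at `∞`, an integral series. -/
theorem emb_true_u12 : emb M q hq hqM true (u12 M q) =
    coeffMap A.subtype (qExpand A q (deltaSeries A) * deltaSeriesInv A) := by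
  rw [u12, emb_smul (emb_algebraMap M q hq hqM true), emb_true_un, map_mul, coeffMap_qExpand,
    coeffMap_deltaSeries, coeffMap_deltaSeriesInv,
    show (q : LaurentSeries Qb) ^ 12 = algebraMap Qb (LaurentSeries Qb) ((q : Qb) ^ 12) by
      rw [map_pow, map_natCast], ← mul_assoc, ← mul_assoc, ← map_mul,
    inv_mul_cancel₀ (pow_ne_zero _ (Nat.cast_ne_zero.mpr hq.ne_zero)), map_one, one_mul]

/-- The expansion of `un` at `0`, an integral series. -/
theorem emb_false_un_int : emb M q hq hqM false (un M q) = coeffMap A.subtype (hSer A q) := by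
  rw [emb_false_un, coeffMap_subtype_hSer]

/-- `un` reduces to `hbar` on the component at `0`. -/
theorem red_false_un : X.red false (un M q) = hbar M q hq hqM hA :=
  Subtype.ext ((X.coe_red_of_coeffMap false (emb_false_un_int M q hq hqM)).trans
    (coeffMap_residue_hSer q))

/-- `u12` reduces to `hbar⁻¹` on the component at `∞`. -/
theorem red_true_u12 : X.red true (u12 M q) = (hbar M q hq hqM hA)⁻¹ := by
  refine eq_inv_of_mul_eq_one_right (Subtype.ext ?_)
  rw [MulMemClass.coe_mul, X.coe_red_of_coeffMap true (emb_true_u12 M q hq hqM), map_mul,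
    coeffMap_qExpand, coeffMap_deltaSeries, coeffMap_deltaSeriesInv]
  exact hSer_mul kA q

include hq hqM in
/-- The unit is fixed by Galois. -/
theorem galAut_un (τ : Γℚ) : galAut M q τ • un M q = un M q := by
  refine (emb M q hq hqM false).injective ?_
  rw [emb_galAut, emb_false_un, map_mul, coeffMap_qExpand, coeffMap_deltaSeries,
    coeffMap_deltaSeriesInv]

include hq hqM in
/-- `u12` is fixed by Galois. -/
theorem galAut_u12 (τ : Γℚ) : galAut M q τ • u12 M q = u12 M q := by
  rw [u12, galAut_smul_scalar, galAut_un M q hq hqM, map_inv₀, map_pow, map_natCast]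

/-- Rational integral functions are fixed by Galois. -/
theorem galAut_of_ratInt {m : ℕ} {g : FN (M * q) Qb} (hg : g ∈ X.ratIntOf m) (τ : Γℚ) :
    galAut M q τ • g = g := by
  refine (emb M q hq hqM true).injective (HahnSeries.ext (funext fun n => ?_))
  rw [emb_galAut_coeff]
  obtain ⟨a, ha, r, hr⟩ := hg.2 true n
  rw [ha, ← hr, AlgEquiv.commutes]

variable (hA0 : X.A0 = A0 M q)
include hA hA0

/-- A rational function vanishing once at a glued point and everywhere on the other component. -/
theorem exists_ratInt_ord_one {s : Place kA (FX kA M)} (hs : s ∈ X.S) :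
    ∃ (m : ℕ) (g : FN (M * q) Qb), g ∈ X.ratIntOf m ∧ X.red false g = 0 ∧
      s.ord (X.red true g) = 1 :=
  X.exists_ratIntOf_ord_one hq hA hs (glueSp_le_span M q hq hqM hA X hA0 le_rfl)

variable (hS : X.S = SS M q hq hqM hA) (hQf : ∀ s ∈ X.S, X.Qf s = Qf M q s)
  (h12 : ∀ s ∈ SS M q hq hqM hA, s.ord (hbar M q hq hqM hA) = 12)
include hS hQf h12

/-- **The nodes**: functions of every scale at a glued point, fixed by Galois. -/
theorem node_data {s : Place kA (FX kA M)} (hs : s ∈ X.S) (i : ℤ) :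
    ∃ (c : ℕ) (U : FN (M * q) Qb), X.IsNodeFun (q : Qb) s i c U ∧
      ∀ τ : Γℚ, galAut M q τ • U = U := by
  obtain ⟨m, g, hg, hg0, hgord⟩ := exists_ratInt_ord_one M q hq hqM hA X hA0 hs
  obtain ⟨cu, hcu⟩ := exists_mem_rr_A0 M q (un_mem_intClosure M q hq hqM)
  rw [← hA0] at hcu
  obtain ⟨c, U, hU, h6⟩ := X.node_data_of_unit hq hA (u' := u12 M q) hs hg hg0
    hgord rfl hcu ⟨_, (emb_true_u12 M q hq hqM).symm⟩ ⟨_, (emb_false_un_int M q hq hqM).symm⟩
    (red_true_u12 M q hq hqM hA X) (red_false_un M q hq hqM hA X) (hbar_ne_zero M q hq hqM hA)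
      (h12 s (hS ▸ hs))
    (by rw [hQf s hs, ord_Qf_hbar, h12 s (hS ▸ hs)]) i
  exact ⟨c, U, hU, fun τ =>
    h6 _ (galAut_of_ratInt M q hq hqM X hg τ) (galAut_u12 M q hq hqM τ)⟩

/-- The engine's node hypothesis with scale `q`. -/
theorem node : X.Node (q : Qb) := fun v hv i => by
  obtain ⟨c, U, hU, -⟩ := node_data M q hq hqM hA X hA0 hS hQf h12 hv i
  exact ⟨c, U, hU⟩

/-- The nodes required by the first order data. -/
theorem node_fixed (σ : Γℚ) : ∀ v ∈ X.S, ∀ i : ℤ, ∃ (c : ℕ) (U : FN (M * q) Qb),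
      X.IsNodeFun (q : Qb) v i c U ∧ U ∈ (ratData M q hq hqM F).R ∧ galAut M q σ • U = U :=
  fun v hv i => by
  obtain ⟨c, U, hU, h6⟩ := node_data M q hq hqM hA X hA0 hS hQf h12 hv i
  exact ⟨c, U, hU, (mem_ratData_R M q hq hqM F).mpr fun τ _ => h6 τ, h6 σ⟩

end Fermat.BAD.Inst

end
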