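import Fermat.Agent.BAD.Inst.Node
import Fermat.Agent.BAD.Wit.Push
import Fermat.Agent.BAD.AtP.Powers
import Fermat.Agent.RED.Congruence.Norm

/-!
# The norms to level `M`

The norms along the two degeneracy maps as `NormData`: the expansion of a norm is that at one
cusp times the product of the conjugate branches of the other, which has coefficients in `F.M`
and reduces to a `q`-th power.
-/

set_option autoImplicit false
set_option linter.unusedSectionVars false

attribute [local instance 10000] SubalgebraClass.toAlgebra HahnSeries.powerSeriesAlgebra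

noncomputable section

open ModularCurve AlgebraicCurve

namespace Fermat.BAD.Inst

open Fermat.FF Fermat.MC Fermat.JAC Fermat.RED Fermat.RED.Model Fermat.BAD.X0

local notation "Qb" => AlgebraicClosure ℚ
local notation "Γℚ" => (AlgebraicClosure ℚ ≃ₐ[ℚ] AlgebraicClosure ℚ)

section General

/-- The norm along a map followed by an isomorphism. -/
theorem normAlong_comp_algEquiv {L F F' F'' : Type*} [Field L] [Field F] [Field F']
    [Field F''] [Algebra L F] [Algebra L F'] [Algebra L F'']
    (φ : F →ₐ[L] F') (e : F' ≃ₐ[L] F'')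
    (f : F'') : normAlong (e.toAlgHom.comp φ) f = normAlong φ (e.symm f) := by
  let := algebraAlong φ
  let := algebraAlong (e.toAlgHom.comp φ)
  change Algebra.norm F f = Algebra.norm F (e.symm f)
  exact Algebra.norm_eq_of_equiv_equiv (RingEquiv.refl F) e.symm.toRingEquiv
    (RingHom.ext fun x => (e.symm_apply_apply (φ x)).symm) f

/-- The norm keeps integrality over `L[x]`. -/
theorem normAlong_mem_intClosure {L F F' : Type*} [Field L] [Field F] [Field F']
    [Algebra L F] [Algebra L F'] (φ : F →ₐ[L] F')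
    {x : F} {z : F'} (hz : z ∈ intClosure L (φ x)) : normAlong φ z ∈ intClosure L x := by
  obtain ⟨Q, hQm, hQz⟩ := exists_monic_of_mem_intClosure φ hz
  let := algebraAlong φ
  have := isScalarTower_along φ
  exact mem_intClosure.mpr (Algebra.isIntegral_norm F (L := F') ⟨Q, hQm, hQz⟩)

/-- The first order expansion of a product. -/
theorem exists_prod_add_mul {R S : Type*} [CommRing R] [CommRing S] (φ : R →+* S) {α : Type*}
    (s : Finset α) (a b : α → R) {c : R} (hc : φ c = 0) {x z : S} (ha : ∀ i, φ (a i) = x)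
    (hb : ∀ i, φ (b i) = z) :
    ∃ Q : R, ∏ i ∈ s, (a i + c * b i) - ∏ i ∈ s, a i = c * Q ∧
      φ Q = (s.card : S) * z * x ^ (s.card - 1) := by
  classical
  induction s using Finset.induction_on with
  | empty => exact ⟨0, by simp, by simp⟩
  | insert i t hit ih =>
    obtain ⟨Q, hQ, hQφ⟩ := ih
    refine ⟨b i * ∏ j ∈ t, a j + (a i + c * b i) * Q, ?_, ?_⟩
    · rw [Finset.prod_insert hit, Finset.prod_insert hit,
        show ∏ j ∈ t, (a j + c * b j) = ∏ j ∈ t, a j + c * Q by rw [← hQ]; ring]
      ring
    · rw [map_add, map_mul, map_mul, map_add, map_mul, hc, map_prod, ha, hb, hQφ,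
        Finset.prod_congr rfl fun j _ => ha j, Finset.prod_const, Finset.card_insert_of_notMem hit,
        Nat.add_sub_cancel]
      rcases Nat.eq_zero_or_pos t.card with h | h
      · rw [h]; simp
      · obtain ⟨m, hm⟩ : ∃ m, t.card = m + 1 := ⟨t.card - 1, by omega⟩
        rw [hm, Nat.add_sub_cancel]
        push_cast
        ring

/-- The first variation of a product of twists, descended along `t ↦ t ^ q`, is small. -/
theorem small_coeff_sub_of_prod_twist {A : ValuationSubring Qb} {q : ℕ} [NeZero q]
    [CharP (IsLocalRing.ResidueField A) q] {uu : Aˣ}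
    (hπ : Units.map (IsLocalRing.residue A : A →* IsLocalRing.ResidueField A) uu = 1)
    {yx yz : LaurentSeries A} {c : Qb} (hc : c ≠ 0) (hcs : Small (IsLocalRing.residue A) c)
    {Px Pxz : LaurentSeries Qb}
    (hx : qExpand Qb q Px = coeffMap A.subtype (∏ i : Fin q, twist (uu ^ (i : ℕ)) yx))
    (hxz : qExpand Qb q Pxz = coeffMap A.subtype (∏ i : Fin q,
      twist (uu ^ (i : ℕ)) (yx + HahnSeries.C (⟨c, hcs.1⟩ : A) * yz))) (n : ℤ) :
    Small (IsLocalRing.residue A) ((Pxz - Px).coeff n / c) := by
  -- `cA` is a constant in the maximal ideal, fixed by twists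
  set cA : LaurentSeries A := HahnSeries.C (⟨c, hcs.1⟩ : A)
  have hcA : coeffMap A.subtype cA = algebraMap Qb (LaurentSeries Qb) c := by
    rw [show cA = HahnSeries.single 0 (⟨c, hcs.1⟩ : A) from rfl, coeffMap_single,
      algebraMap_laurentSeries_eq_single]
    rfl
  have htw : ∀ u : Aˣ, twist u cA = cA := fun u => by
    ext k
    rw [twist_coeff]
    rcases eq_or_ne k 0 with rfl | hk
    · simp
    · rw [show cA.coeff k = 0 from HahnSeries.coeff_single_of_ne hk, mul_zero]
  have hφc : coeffMap (IsLocalRing.residue A) cA = 0 := by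
    rw [show cA = HahnSeries.single 0 (⟨c, hcs.1⟩ : A) from rfl, coeffMap_single, hcs.2]
    exact map_zero _
  -- the product moves by `cA * Q`, with `Q` reducing to a multiple of `q`, so to zero
  obtain ⟨Q, hQ, hQr⟩ := exists_prod_add_mul (coeffMap (IsLocalRing.residue A)) Finset.univ
    (fun i : Fin q => twist (uu ^ (i : ℕ)) yx) (fun i : Fin q => twist (uu ^ (i : ℕ)) yz) hφc
    (x := coeffMap (IsLocalRing.residue A) yx) (z := coeffMap (IsLocalRing.residue A) yz)
    (fun i => by rw [coeffMap_twist, map_pow, hπ, one_pow, twist_one_apply])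
    (fun i => by rw [coeffMap_twist, map_pow, hπ, one_pow, twist_one_apply])
  have hQ0 : coeffMap (IsLocalRing.residue A) Q = 0 := by
    rw [hQr, Finset.card_univ, Fintype.card_fin,
      show ((q : ℕ) : LaurentSeries (IsLocalRing.ResidueField A)) = 0 from by
        rw [← map_natCast (algebraMap (IsLocalRing.ResidueField A)
          (LaurentSeries (IsLocalRing.ResidueField A))), CharP.cast_eq_zero, map_zero],
      zero_mul, zero_mul]
  have hprod : ∏ i : Fin q, twist (uu ^ (i : ℕ)) (yx + cA * yz) =
      ∏ i : Fin q, (twist (uu ^ (i : ℕ)) yx + cA * twist (uu ^ (i : ℕ)) yz) :=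
    Finset.prod_congr rfl fun i _ => by rw [map_add, map_mul, htw]
  -- hence the coefficient difference is `c` times a coefficient of `Q`
  have hco : (Pxz - Px).coeff n = c * ((Q.coeff ((q : ℤ) * n) : A) : Qb) := by
    rw [← qExpand_coeff_mul q, map_sub, hxz, hx, ← map_sub, hprod, hQ, map_mul, hcA,
      Fermat.RED.coeff_algebraMap_mul, coeffMap_coeff]
    rfl
  rw [hco, mul_div_cancel_left₀ _ hc]
  refine ⟨(Q.coeff _).2, ?_⟩
  have := congrArg (fun s : LaurentSeries (IsLocalRing.ResidueField A) => s.coeff ((q : ℤ) * n)) hQ0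
  simpa only [coeffMap_coeff, HahnSeries.coeff_zero] using this

/-- An integral constant series as a constant of `ℚ̄`. -/
theorem coeffMap_subtype_C {A : ValuationSubring Qb} (a : A) :
    coeffMap A.subtype (HahnSeries.C a) = algebraMap Qb (LaurentSeries Qb) (a : Qb) := by
  change coeffMap A.subtype (HahnSeries.single 0 a) = _
  rw [coeffMap_single, algebraMap_laurentSeries_eq_single]
  rfl

end General

variable (M q : ℕ) [NeZero M] [NeZero q] [Fact q.Prime] (hq : q.Prime) (hqM : ¬ q ∣ M)
variable [FF.IsFunctionField Qb (FN (M * q) Qb)] [FF.IsFunctionField Qb (FN M Qb)]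
variable {A : ValuationSubring (AlgebraicClosure ℚ)} (hA : A.LiesOverPrime q)
  [IsAlgClosed (IsLocalRing.ResidueField A)] [CharP (IsLocalRing.ResidueField A) q]
  [FF.IsFunctionField (IsLocalRing.ResidueField A) (FX (IsLocalRing.ResidueField A) M)]
variable {rb : Γℚ →* GL (Fin 2) (ZMod q)} {a₀ : ℕ} (F : AtP.LocalField q A rb a₀)

local notation "kA" => IsLocalRing.ResidueField A

variable (X : Degen (IsLocalRing.residue A) (emb M q hq hqM)
  (modularFunctionFieldFullC (IsLocalRing.ResidueField A) M))

/-- The component moved to `∞`. -/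
def toInf : Bool → (FN (M * q) Qb ≃ₐ[Qb] FN (M * q) Qb)
  | true => AlgEquiv.refl
  | false => alW M q hq hqM

/-- Expansions after moving a component to `∞`. -/
theorem emb_toInf (b c : Bool) (f : FN (M * q) Qb) :
    emb M q hq hqM c (toInf M q hq hqM b f) = emb M q hq hqM (cond b c (!c)) f := by
  cases b
  · exact emb_alW M q hq hqM c f
  · rfl

include hq hqM in
/-- The norm along either degeneracy map is the norm along `α` after moving the component to `∞`. -/
theorem normAlong_degMap (b : Bool) (f : FN (M * q) Qb) :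
    normAlong (AtP.degMap M q b) f =
      normAlong (heckeAlphaBar Qb M q) (toInf M q hq hqM b f) := by
  cases b
  · have h : (alW M q hq hqM).toAlgHom.comp (heckeAlphaBar Qb M q) = heckeBetaBar Qb M q :=
      AlgHom.ext fun x => alW_alpha M q hq hqM x
    change normAlong (heckeBetaBar Qb M q) f = _
    rw [← h, normAlong_comp_algEquiv]
    refine congrArg _ ((alW M q hq hqM).injective ?_)
    rw [AlgEquiv.apply_symm_apply]
    exact (alW_alW M q hq hqM f).symm
  · rfl

/-- The root of unity of the local field as a unit. -/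
def zetaU : Qbˣ := Units.mk0 F.ζ (F.ζ_prim.ne_zero (NeZero.ne q))

/-- `zetaU` is a primitive `q`-th root of unity. -/
theorem zetaU_prim : IsPrimitiveRoot ((zetaU q F : Qbˣ) : Qb) q := F.ζ_prim

/-- The product of the twists by `ζ ^ i` of the expansion at the other component. -/
def tprod (b : Bool) (f : FN (M * q) Qb) : LaurentSeries Qb :=
  ∏ i : Fin q, twist (zetaU q F ^ (i : ℕ)) (emb M q hq hqM (!b) f)

/-- The norm to level `M` divided by the expansion at `b`: the other factor of the norm. -/
def psiN (b : Bool) : FN (M * q) Qb →* LaurentSeries Qb where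
  toFun f := ((normAlong (AtP.degMap M q b) f : FN M Qb) : LaurentSeries Qb) / emb M q hq hqM b f
  map_one' := by rw [map_one, map_one]; simp
  map_mul' f g := by rw [map_mul, map_mul, MulMemClass.coe_mul, mul_div_mul_comm]

/-- The norm after `t ↦ t ^ q`: the expansion at `b` times `tprod`. -/
theorem qExpand_normAlong (b : Bool) (f : FN (M * q) Qb) :
    qExpand Qb q ((normAlong (AtP.degMap M q b) f : FN M Qb) : LaurentSeries Qb) =
      qExpand Qb q (emb M q hq hqM b f) * tprod M q hq hqM F b f := by
  rw [normAlong_degMap M q hq hqM, qExpand_norm M q hq hqM (zetaU_prim q F), emb_toInf, tprod]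
  congr 1
  · cases b <;> rfl
  · refine Finset.prod_congr rfl fun i _ => ?_
    rw [emb_toInf]
    cases b <;> rfl

/-- `psiN` is the descent of `tprod` along `t ↦ t ^ q`. -/
theorem qExpand_psiN (b : Bool) (f : FN (M * q) Qb) :
    qExpand Qb q (psiN M q hq hqM b f) = tprod M q hq hqM F b f := by
  change qExpand Qb q (_ / _) = _
  rw [map_div₀, qExpand_normAlong M q hq hqM F]
  rcases eq_or_ne f 0 with rfl | hf
  · rw [map_zero, map_zero, zero_mul, zero_div, tprod, map_zero]
    simp only [map_zero]
    exact (Finset.prod_eq_zero (Finset.mem_univ (⟨0, hq.pos⟩ : Fin q)) rfl).symm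
  · exact mul_div_cancel_left₀ _ ((map_ne_zero_iff _ (qExpand_injective q)).mpr
      ((map_ne_zero_iff _ (emb M q hq hqM b).injective).mpr hf))

/-- The norm is the expansion at `b` times `psiN`. -/
theorem expand (b : Bool) (f : FN (M * q) Qb) :
    ((normAlong (AtP.degMap M q b) f : FN M Qb) : LaurentSeries Qb) =
      emb M q hq hqM b f * psiN M q hq hqM b f := by
  rcases eq_or_ne f 0 with rfl | hf
  · obtain ⟨ζ, hζ⟩ := exists_zeta q
    refine qExpand_injective q ?_
    rw [normAlong_degMap M q hq hqM, qExpand_norm M q hq hqM hζ]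
    simp only [map_zero, zero_mul]
  · exact (mul_div_cancel₀ _ ((map_ne_zero_iff _ (emb M q hq hqM b).injective).mpr hf)).symm

/-- `psiN` of a rational function has coefficients in `F.M`. -/
theorem psiN_rc (b : Bool) {f : FN (M * q) Qb} (hf : (ratData M q hq hqM F).RC f) :
    psiN M q hq hqM b f ∈ (ratData M q hq hqM F).serM := by
  set R := ratData M q hq hqM F
  have hz : ((zetaU q F : Qbˣ) : Qb) ∈ R.M := F.ζ_mem
  have h : tprod M q hq hqM F b f ∈ R.serM := by
    refine prod_mem fun i _ => R.mem_serM.mpr fun n => ?_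
    rw [twist_coeff]
    refine mul_mem ?_ (hf.coeff R (!b) n)
    rw [Units.val_zpow_eq_zpow_val, Units.val_pow_eq_pow_val]
    exact zpow_mem (pow_mem hz _) n
  refine R.mem_serM.mpr fun n => ?_
  rw [← qExpand_coeff_mul q (psiN M q hq hqM b f) n, qExpand_psiN M q hq hqM F]
  exact R.mem_serM.mp h _

include F

/-- An integral lift of the product of the conjugates. -/
theorem exists_lift_tprod :
    ∃ uu : Aˣ, Units.map (IsLocalRing.residue A : A →* kA) uu = 1 ∧
      ∀ (b : Bool) (f : FN (M * q) Qb) (y : LaurentSeries A),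
        coeffMap A.subtype y = emb M q hq hqM (!b) f →
          coeffMap A.subtype (∏ i : Fin q, twist (uu ^ (i : ℕ)) y) = tprod M q hq hqM F b f := by
  obtain ⟨uu, hmap, hπ⟩ := exists_unit_root (A := A) (π := IsLocalRing.residue A) (zetaU_prim q F)
  refine ⟨uu, hπ, fun b f y hy => ?_⟩
  rw [map_prod, tprod]
  exact Finset.prod_congr rfl fun i _ => by rw [coeffMap_twist, hmap, hy]

/-- `psiN` has an integral lift, reducing to a descent of the `q`-th power of the reduction at the
other component. -/
theorem exists_psiN_lift (b : Bool) {f : FN (M * q) Qb} {y : LaurentSeries A}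
    (hy : coeffMap A.subtype y = emb M q hq hqM (!b) f) :
    ∃ w : LaurentSeries A, coeffMap A.subtype w = psiN M q hq hqM b f ∧
      qExpand kA q (coeffMap (IsLocalRing.residue A) w) =
        coeffMap (IsLocalRing.residue A) y ^ q := by
  obtain ⟨uu, hπ, hl⟩ := exists_lift_tprod M q hq hqM F
  obtain ⟨w, hw, hw'⟩ := exists_descend (q := q) (z := psiN M q hq hqM b f)
    (w := ∏ i : Fin q, twist (uu ^ (i : ℕ)) y) (by rw [hl b f y hy, qExpand_psiN M q hq hqM F])
  refine ⟨w, hw.symm, ?_⟩
  rw [← coeffMap_qExpand, hw', map_prod,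
    Finset.prod_eq_pow_card (b := coeffMap (IsLocalRing.residue A) y) fun i _ => by
      rw [coeffMap_twist, map_pow, hπ, one_pow, twist_one_apply], Finset.card_univ,
        Fintype.card_fin]

/-- `psiN` of an integral function is integral. -/
theorem psiN_int (b : Bool) {f : FN (M * q) Qb} (hf : f ∈ X.intF) :
    psiN M q hq hqM b f ∈ intSeries A := by
  obtain ⟨y, hy⟩ := X.mem_intF.mp hf (!b)
  obtain ⟨w, hw, -⟩ := exists_psiN_lift M q hq hqM F b hy
  exact ⟨w, hw⟩

omit F in
/-- The reduction of a series with a given integral lift. -/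
theorem redS_of_coeffMap {x : LaurentSeries Qb} {w : LaurentSeries A}
    (h : coeffMap A.subtype w = x) :
    redS (IsLocalRing.residue A) x = coeffMap (IsLocalRing.residue A) w := by
  subst h
  rw [redS_of_mem (⟨w, rfl⟩ : coeffMap A.subtype w ∈ intSeries A)]
  exact redHom_coeffMap _ _ _

/-- `psiN` reduces to nonzero if the function does on the other component. -/
theorem psiN_ne (b : Bool) {f : FN (M * q) Qb} (hf : f ∈ X.intF) (h0 : X.red (!b) f ≠ 0) :
    redS (IsLocalRing.residue A) (psiN M q hq hqM b f) ≠ 0 := by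
  obtain ⟨y, hy⟩ := X.mem_intF.mp hf (!b)
  obtain ⟨w, hw, hwr⟩ := exists_psiN_lift M q hq hqM F b hy
  rw [redS_of_coeffMap hw]
  intro e
  rw [e, map_zero, eq_comm, pow_eq_zero_iff hq.ne_zero] at hwr
  refine h0 (Subtype.ext ?_)
  rw [X.coe_red, gRed_of_int (X.mem_intF.mp hf (!b)), redF_of_mem (X.mem_intF.mp hf (!b))]
  refine Eq.trans ?_ (hwr.trans (ZeroMemClass.coe_zero _).symm)
  rw [← redHom_coeffMap (IsLocalRing.residue A) y ⟨y, rfl⟩]
  exact congrArg _ (Subtype.ext hy.symm)

/-- A small perturbation of the function moves `psiN` by less than the perturbation. -/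
theorem psiN_move (b : Bool) {x z : FN (M * q) Qb} (hx : x ∈ X.intF) (hz : z ∈ X.intF) {c : Qb}
    (hc : c ≠ 0) (hcs : Small (IsLocalRing.residue A) c) (n : ℤ) :
    Small (IsLocalRing.residue A)
      ((psiN M q hq hqM b (x + c • z) - psiN M q hq hqM b x).coeff n / c) := by
  obtain ⟨yx, hyx⟩ := X.mem_intF.mp hx (!b)
  obtain ⟨yz, hyz⟩ := X.mem_intF.mp hz (!b)
  obtain ⟨uu, hπ, hl⟩ := exists_lift_tprod M q hq hqM F
  refine small_coeff_sub_of_prod_twist (uu := uu) (yx := yx) (yz := yz) hπ hc hcs
    (by rw [qExpand_psiN M q hq hqM F, hl b _ _ hyx]) ?_ n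
  rw [qExpand_psiN M q hq hqM F, hl b (x + c • z) _ ?_]
  rw [map_add, map_mul, coeffMap_subtype_C, hyx, hyz, map_add,
    emb_smul (emb_algebraMap M q hq hqM (!b))]

variable (hA0 : X.A0 = A0 M q)
include hA0

/-- If `W ^ n` is the norm to level `M` of a function with bounded poles then `W` has bounded
expansion. -/
theorem normN_bdd (b : Bool) (m : ℕ) (f : FN (M * q) Qb) (hf : f ∈ riemannRochSpace (m • X.A0))
    (n : ℕ) (hn : n ≠ 0) (W : FN M Qb) (hW : W ^ n = normAlong (AtP.degMap M q b) f) :
    ∃ j : ℕ, algebraMap Qb (LaurentSeries Qb) (F.ρ ^ j) * (W : LaurentSeries Qb) ∈ intSeries A := by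
  have hfi : f ∈ intClosure Qb (aj M q) := mem_intClosure_of_mem_A0 M q hq hqM (hA0 ▸ hf)
  have hTi : toInf M q hq hqM b f ∈ intClosure Qb (aj M q) := by
    cases b
    · exact alW_mem_intClosure M q hq hqM hfi
    · exact hfi
  -- `W` is integral over `ℚ̄[j]`, so has bounded poles as a function of level `M q`
  have hN : W ^ n ∈ intClosure Qb (jL M Qb) := by
    rw [hW, normAlong_degMap M q hq hqM]
    exact normAlong_mem_intClosure _ hTi
  have hWi : W ∈ intClosure Qb (jL M Qb) :=
    mem_intClosure.mpr (IsIntegral.of_pow (Nat.pos_of_ne_zero hn) (mem_intClosure.mp hN))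
  obtain ⟨e, he⟩ := exists_mem_rr_A0 M q (map_mem_intClosure (heckeAlphaBar Qb M q) hWi)
  rw [← hA0] at he
  obtain ⟨a, ha, hint⟩ := X.bdd true e _ he
  rw [Algebra.smul_def, map_mul, X.ι_algebraMap, emb_true_alpha] at hint
  exact X.exists_pow_mul_mem_intSeries F.ρ_A F.ρ_small ha hint

include hA

/-- **The norm data** of the degeneracy map at component `b`. -/
def normData (b : Bool) : NormData X (ratData M q hq hqM F) b (FN M Qb) where
  ι' := (FN M Qb).val.toRingHom
  const := algebraMap Qb (FN M Qb)
  ι'_const _ := rfl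
  N := normAlong (AtP.degMap M q b)
  Ψ := psiN M q hq hqM b
  expand := expand M q hq hqM b
  rc f hf := psiN_rc M q hq hqM F b hf
  int f hf _ := psiN_int M q hq hqM F X b hf
  ne f hf _ h := psiN_ne M q hq hqM F X b hf h
  move x hx _ z hz _ c hc hcs n := psiN_move M q hq hqM F X b hx hz hc hcs n
  red_mem W hW := by
    obtain ⟨y, hy⟩ := id hW
    rw [redS_of_coeffMap hy]
    exact redF_mem_K M q hq hqM hA W y hy.symm
  bdd m f hf n hn W hW := normN_bdd M q hq hqM F X hA0 b m f hf n hn W hW

end Fermat.BAD.Inst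

end
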