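import Fermat.Agent.BAD.Inst.Rat
import Fermat.Agent.BAD.X0.Rational
import Fermat.Agent.BAD.Engine.Mul

/-!
# Rational functions have all glued pairs as reductions

Interleaving the two expansions turns the glued pairs into single series; the space of bounded
functions is Galois stable, so the rational integral ones have spanning reductions, and scalars
lifted to `F.M` give the lifts needed by the engine.
-/

set_option autoImplicit false

attribute [local instance 10000] SubalgebraClass.toAlgebra HahnSeries.powerSeriesAlgebra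

noncomputable section

open ModularCurve AlgebraicCurve

namespace Fermat.BAD.Inst

open Fermat.MC Fermat.RED Fermat.RED.Model Fermat.BAD.X0

local notation "Qb" => AlgebraicClosure ℚ
local notation "Γℚ" => (AlgebraicClosure ℚ ≃ₐ[ℚ] AlgebraicClosure ℚ)

section Interleave

variable {R : Type*} [CommRing R]

/-- Two series as the even and the odd part of one. -/
def interleave (x y : LaurentSeries R) : LaurentSeries R :=
  qExpand R 2 x + HahnSeries.single 1 1 * qExpand R 2 y

/-- The even coefficients of an interleaving. -/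
theorem interleave_coeff_even (x y : LaurentSeries R) (n : ℤ) :
    (interleave x y).coeff (((2 : ℕ) : ℤ) * n) = x.coeff n := by
  rw [interleave, HahnSeries.coeff_add, qExpand_coeff_mul, HahnSeries.coeff_single_mul,
    qExpand_coeff_of_not_dvd 2 y (by omega), mul_zero, add_zero]

/-- The odd coefficients of an interleaving. -/
theorem interleave_coeff_odd (x y : LaurentSeries R) (n : ℤ) :
    (interleave x y).coeff (((2 : ℕ) : ℤ) * n + 1) = y.coeff n := by
  rw [interleave, HahnSeries.coeff_add, qExpand_coeff_of_not_dvd 2 x (by omega),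
    HahnSeries.coeff_single_mul, add_sub_cancel_right, qExpand_coeff_mul, one_mul, zero_add]

/-- An interleaving is determined by its even and odd coefficients. -/
theorem interleave_ext {z : LaurentSeries R} {x y : LaurentSeries R}
    (he : ∀ n, z.coeff (((2 : ℕ) : ℤ) * n) = x.coeff n)
    (ho : ∀ n, z.coeff (((2 : ℕ) : ℤ) * n + 1) = y.coeff n) : z = interleave x y := by
  ext m
  rcases Int.even_or_odd' m with ⟨n, rfl | rfl⟩
  · exact (he n).trans (interleave_coeff_even x y n).symm
  · exact (ho n).trans (interleave_coeff_odd x y n).symm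

/-- Interleaving commutes with maps of coefficients. -/
theorem coeffMap_interleave {S : Type*} [CommRing S] (f : R →+* S) (x y : LaurentSeries R) :
    coeffMap f (interleave x y) = interleave (coeffMap f x) (coeffMap f y) :=
  interleave_ext (fun n => by rw [coeffMap_coeff, interleave_coeff_even, coeffMap_coeff])
    fun n => by rw [coeffMap_coeff, interleave_coeff_odd, coeffMap_coeff]

/-- Interleaving commutes with scalars. -/
theorem smul_interleave (c : R) (x y : LaurentSeries R) :
    c • interleave x y = interleave (c • x) (c • y) :=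
  interleave_ext (fun n => by
    rw [HahnSeries.coeff_smul, HahnSeries.coeff_smul, interleave_coeff_even])
    fun n => by rw [HahnSeries.coeff_smul, HahnSeries.coeff_smul, interleave_coeff_odd]

/-- Interleaving is additive. -/
theorem interleave_add (x y x' y' : LaurentSeries R) :
    interleave (x + x') (y + y') = interleave x y + interleave x' y' := by
  simp only [interleave, map_add]; ring

/-- Interleaving is injective. -/
theorem interleave_inj {x y x' y' : LaurentSeries R} (h : interleave x y = interleave x' y') :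
    x = x' ∧ y = y' :=
  ⟨HahnSeries.ext (funext fun n => by
      rw [← interleave_coeff_even x y n, h, interleave_coeff_even]),
    HahnSeries.ext (funext fun n => by
      rw [← interleave_coeff_odd x y n, h, interleave_coeff_odd])⟩

/-- An interleaving of integral series is integral. -/
theorem interleave_mem_intSeries {L : Type*} [Field L] {B : ValuationSubring L}
    {x y : LaurentSeries L} (hx : x ∈ intSeries B) (hy : y ∈ intSeries B) :
    interleave x y ∈ intSeries B := by
  obtain ⟨x', rfl⟩ := hx
  obtain ⟨y', rfl⟩ := hy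
  exact ⟨interleave x' y', coeffMap_interleave _ _ _⟩

end Interleave

end Fermat.BAD.Inst

namespace Fermat.BAD.Degen

open Fermat.RED Fermat.RED.Model Fermat.BAD.X0

local notation "Qb" => AlgebraicClosure ℚ
local notation "Γℚ" => (AlgebraicClosure ℚ ≃ₐ[ℚ] AlgebraicClosure ℚ)

variable {A : ValuationSubring (AlgebraicClosure ℚ)} [IsAlgClosed (IsLocalRing.ResidueField A)]

local notation "kA" => IsLocalRing.ResidueField A

variable {F : Type} [Field F] [Algebra (AlgebraicClosure ℚ) F] [FF.IsFunctionField Qb F]
variable {ι : Bool → F →+* LaurentSeries (AlgebraicClosure ℚ)}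
  {K : IntermediateField (IsLocalRing.ResidueField A) (LaurentSeries (IsLocalRing.ResidueField A))}
  [FF.IsFunctionField (IsLocalRing.ResidueField A) K]
variable (X : Degen (IsLocalRing.residue A) ι K)

/-- Both expansions in one series. -/
def pairSerOf : F →ₗ[Qb] LaurentSeries Qb where
  toFun f := Inst.interleave (ι true f) (ι false f)
  map_add' f g := by rw [map_add, map_add, Inst.interleave_add]
  map_smul' c f := by
    rw [RingHom.id_apply, Inst.smul_interleave, Algebra.smul_def, map_mul, map_mul, X.ι_algebraMap,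
      X.ι_algebraMap, RED.laurent_smul_def, RED.laurent_smul_def]

/-- A pair of reductions as one series. -/
def pairRedOf : (Bool → K) →ₗ[kA] LaurentSeries kA where
  toFun t := Inst.interleave (t true : LaurentSeries kA) (t false : LaurentSeries kA)
  map_add' s t := by rw [Pi.add_apply, Pi.add_apply, AddMemClass.coe_add, AddMemClass.coe_add,
    Inst.interleave_add]
  map_smul' c t := by
    rw [RingHom.id_apply, Inst.smul_interleave]
    refine congrArg₂ Inst.interleave ?_ ?_ <;> ext n <;>
      rw [HahnSeries.coeff_smul, Pi.smul_apply, X.coe_smul_series, smul_eq_mul]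

/-- A pair of reductions is determined by its interleaving. -/
theorem pairRedOf_injective : Function.Injective X.pairRedOf := fun s t h => by
  obtain ⟨h1, h2⟩ := Inst.interleave_inj h
  funext b
  cases b
  · exact Subtype.ext h2
  · exact Subtype.ext h1

/-- The interleaved expansions reduce to the interleaved reductions. -/
theorem residue_pairOf (g : F) (hg : ∀ b, ι b g ∈ intSeries A)
    (r : LaurentSeries A) (hr : X.pairSerOf g = coeffMap A.subtype r) :
    coeffMap (IsLocalRing.residue A) r = X.pairRedOf (fun b => X.red b g) := by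
  obtain ⟨x, hx⟩ := id (hg true)
  obtain ⟨y, hy⟩ := id (hg false)
  have h : r = Inst.interleave x y := Model.coeffMap_subtype_injective A (by
    rw [← hr, Inst.coeffMap_interleave, hx, hy]; rfl)
  rw [h, Inst.coeffMap_interleave]
  change _ = Inst.interleave (gRed _ _ g) (gRed _ _ g)
  rw [gRed_of_int (hg true), gRed_of_int (hg false), redF_of_mem (hg true), redF_of_mem (hg false),
    ← redHom_coeffMap (IsLocalRing.residue A) x ⟨x, rfl⟩,
    ← redHom_coeffMap (IsLocalRing.residue A) y ⟨y, rfl⟩]
  exact congrArg₂ Inst.interleave (congrArg _ (Subtype.ext hx)) (congrArg _ (Subtype.ext hy))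

/-- The functions with poles at most `m A₀` whose expansions are rational and integral. -/
def ratIntOf (m : ℕ) : Set F :=
  {g | g ∈ riemannRochSpace (m • X.A0) ∧
    ∀ b n, ∃ a : A, (ι b g).coeff n = a ∧ (a : Qb) ∈ Set.range (algebraMap ℚ Qb)}

/-- Members of `ratIntOf` have integral expansions. -/
theorem ratIntOf_int {m : ℕ} {g : F} (hg : g ∈ X.ratIntOf m) (b : Bool) : ι b g ∈ intSeries A :=
  mem_intSeries_iff.mpr fun n => by obtain ⟨a, ha, -⟩ := hg.2 b n; rw [ha]; exact a.2

/-- If the Galois group acts on the bounded functions through the coefficients, the reductions of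
the rational integral ones span the glued pairs. -/
theorem glueSp_le_span_of_gal {q : ℕ} (hq : q.Prime) (hA : A.LiesOverPrime q) (act : Γℚ → F → F)
    (hrr : ∀ (σ : Γℚ) (m : ℕ) (f : F), f ∈ riemannRochSpace (m • X.A0) →
      act σ f ∈ riemannRochSpace (m • X.A0))
    (hact : ∀ (σ : Γℚ) (b : Bool) (f : F), ι b (act σ f) = coeffMap (σ : Qb →+* Qb) (ι b f))
    (hco : ∀ b f, ∃ L₁ : IntermediateField ℚ Qb, FiniteDimensional ℚ L₁ ∧ ∀ n, (ι b f).coeff n ∈ L₁)
    {m : ℕ} (hm : X.N0 ≤ m) :
    X.glueSp (fun _ => 1) m ≤
      Submodule.span kA ((fun g b => X.red b g) '' X.ratIntOf m) := by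
  intro t ht
  obtain ⟨f, hf, hfO, hft⟩ := X.exists_lift hm ht
  set W := riemannRochSpace (m • X.A0)
  have : FiniteDimensional Qb W := FF.instFiniteRiemannRochSpace _
  have hint := fun b => X.series_int_of_mem (X.int_of_mem_O hfO b) hf
  obtain ⟨r₀, hr₀⟩ := Inst.interleave_mem_intSeries (hint true) (hint false)
  -- descend the interleaved space, then separate the even and the odd coefficients again
  set V := W.map (X.pairSerOf)
  have : FiniteDimensional Qb V := Module.Finite.map _ _
  have key := red_mem_span hq hA V (fun σ z hz => by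
      obtain ⟨g, hg, rfl⟩ := Submodule.mem_map.mp hz
      refine Submodule.mem_map.mpr ⟨act σ g, hrr σ m g hg, ?_⟩
      change Inst.interleave _ _ = coeffMap _ (Inst.interleave _ _)
      rw [Inst.coeffMap_interleave, hact, hact])
    (fun z hz => by
      obtain ⟨g, -, rfl⟩ := Submodule.mem_map.mp hz
      obtain ⟨L₁, h1, hL₁⟩ := hco true g
      obtain ⟨L₂, h2, hL₂⟩ := hco false g
      have := h1
      have := h2
      refine ⟨L₁ ⊔ L₂, inferInstance, fun n => ?_⟩
      change (Inst.interleave (ι true g) (ι false g)).coeff n ∈ L₁ ⊔ L₂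
      rcases Int.even_or_odd' n with ⟨k, rfl | rfl⟩
      · rw [show (2 : ℤ) = ((2 : ℕ) : ℤ) from rfl, Inst.interleave_coeff_even]
        exact (le_sup_left : L₁ ≤ L₁ ⊔ L₂) (hL₁ k)
      · rw [show (2 : ℤ) = ((2 : ℕ) : ℤ) from rfl, Inst.interleave_coeff_odd]
        exact (le_sup_right : L₂ ≤ L₁ ⊔ L₂) (hL₂ k))
    (fun z hz => by
      obtain ⟨g, hg, rfl⟩ := Submodule.mem_map.mp hz
      obtain ⟨a₁, ha₁, hi₁⟩ := X.bdd true m g hg
      obtain ⟨a₂, ha₂, hi₂⟩ := X.bdd false m g hg
      obtain ⟨c, hc, hdiv, -⟩ := exists_div_mem (A := A) (Finset.univ : Finset (Option Bool))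
        (fun o => o.elim 1 fun b => cond b a₁⁻¹ a₂⁻¹) ⟨none, Finset.mem_univ _, one_ne_zero⟩
      refine ⟨c⁻¹, inv_ne_zero hc, ?_, ?_⟩
      · simpa using hdiv none (Finset.mem_univ _)
      rw [← map_smul]
      refine Inst.interleave_mem_intSeries ?_ ?_
      · rw [show c⁻¹ • g = (a₁⁻¹ / c) • a₁ • g by
          rw [smul_smul, div_mul_eq_mul_div, inv_mul_cancel₀ ha₁, one_div],
            Algebra.smul_def, map_mul]
        exact mul_mem (X.series_algebraMap (hdiv (some true) (Finset.mem_univ _))) hi₁
      · rw [show c⁻¹ • g = (a₂⁻¹ / c) • a₂ • g by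
          rw [smul_smul, div_mul_eq_mul_div, inv_mul_cancel₀ ha₂, one_div],
            Algebra.smul_def, map_mul]
        exact mul_mem (X.series_algebraMap (hdiv (some false) (Finset.mem_univ _))) hi₂)
    (y := r₀) (hr₀.symm ▸ Submodule.mem_map_of_mem hf)
  rw [X.residue_pairOf f hint r₀ hr₀.symm,
    show (fun b => X.red b f) = t from funext hft] at key
  -- rational series of the space come from rational functions
  have hsub : Submodule.span kA {z | ∃ r : LaurentSeries A, coeffMap A.subtype r ∈ V ∧
      RatSeries (coeffMap A.subtype r) ∧ z = coeffMap (IsLocalRing.residue A) r} ≤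
      (Submodule.span kA ((fun g b => X.red b g) '' X.ratIntOf m)).map
        (X.pairRedOf) := by
    rw [Submodule.span_le]
    rintro z ⟨r, hrV, hrQ, rfl⟩
    obtain ⟨g, hg, hgr⟩ := Submodule.mem_map.mp hrV
    have hc : ∀ b n, ∃ a : A, (ι b g).coeff n = a ∧
        (a : Qb) ∈ Set.range (algebraMap ℚ Qb) := by
      intro b n
      cases b
      · refine ⟨r.coeff (((2 : ℕ) : ℤ) * n + 1), ?_, ?_⟩
        · rw [← Inst.interleave_coeff_odd (ι true g) (ι false g) n]
          exact (congrArg (fun z : LaurentSeries Qb => z.coeff _) hgr).trans (coeffMap_coeff _ _ _)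
        · have := hrQ (((2 : ℕ) : ℤ) * n + 1)
          rwa [coeffMap_coeff] at this
      · refine ⟨r.coeff (((2 : ℕ) : ℤ) * n), ?_, ?_⟩
        · rw [← Inst.interleave_coeff_even (ι true g) (ι false g) n]
          exact (congrArg (fun z : LaurentSeries Qb => z.coeff _) hgr).trans (coeffMap_coeff _ _ _)
        · have := hrQ (((2 : ℕ) : ℤ) * n)
          rwa [coeffMap_coeff] at this
    exact ⟨_, Submodule.subset_span ⟨g, ⟨hg, hc⟩, rfl⟩,
      (X.residue_pairOf g
        (X.ratIntOf_int ⟨hg, hc⟩) r hgr).symm⟩
  obtain ⟨t', ht', he⟩ := hsub key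
  rwa [X.pairRedOf_injective he] at ht'

/-- Glued pairs spanned by rational integral functions lift to rational functions. -/
theorem liftGlue_of_span (R : RatData (IsLocalRing.residue A) ι) {m : ℕ}
    (hR : ∀ g ∈ X.ratIntOf m, g ∈ R.R)
    (hspan : X.glueSp (fun _ => 1) m ≤
      Submodule.span (IsLocalRing.ResidueField A) ((fun g b => X.red b g) '' X.ratIntOf m)) :
    X.LiftGlue R m := by
  intro t ht
  have h := hspan ht
  clear ht
  induction h using Submodule.span_induction with
  | mem x hx =>
    obtain ⟨g, hg, rfl⟩ := hx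
    exact ⟨g, hg.1, R.rc_of_mem (hR g hg),
      X.ratIntOf_int hg, fun b => rfl⟩
  | zero =>
    exact ⟨0, zero_mem _, R.rc_of_mem (zero_mem _),
      fun b => by rw [map_zero]; exact zero_mem _, fun b => X.red_zero b⟩
  | add x y _ _ hx hy =>
    obtain ⟨f, hf, hfR, hfi, hfr⟩ := hx
    obtain ⟨g, hg, hgR, hgi, hgr⟩ := hy
    exact ⟨f + g, add_mem hf hg, RatData.rc_add _ hfR hgR,
      fun b => by rw [map_add]; exact add_mem (hfi b) (hgi b), fun b => by
      rw [X.red_add (mem_gInt_of_int (hfi b)) (mem_gInt_of_int (hgi b)), hfr, hgr, Pi.add_apply]⟩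
  | smul c x _ hx =>
    obtain ⟨f, hf, hfR, hfi, hfr⟩ := hx
    obtain ⟨a, haM, rfl⟩ := R.surjM c
    exact ⟨(a : Qb) • f, Submodule.smul_mem _ _ hf, RatData.rc_smul (X := X) _ haM hfR, fun b => by
      rw [Algebra.smul_def, map_mul]; exact mul_mem (X.series_algebraMap a.2) (hfi b),
      fun b => by rw [X.red_smul a (mem_gInt_of_int (hfi b)), hfr, Pi.smul_apply]⟩

end Fermat.BAD.Degen

namespace Fermat.BAD.Inst

open Fermat.MC Fermat.RED Fermat.RED.Model Fermat.BAD.X0

local notation "Qb" => AlgebraicClosure ℚ
local notation "Γℚ" => (AlgebraicClosure ℚ ≃ₐ[ℚ] AlgebraicClosure ℚ)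

variable (M q : ℕ) [NeZero M] [NeZero q] [Fact q.Prime] (hq : q.Prime) (hqM : ¬ q ∣ M)
variable [FF.IsFunctionField Qb (FN (M * q) Qb)]
variable {A : ValuationSubring (AlgebraicClosure ℚ)} (hA : A.LiesOverPrime q)
  [IsAlgClosed (IsLocalRing.ResidueField A)]
  [FF.IsFunctionField (IsLocalRing.ResidueField A) (FX (IsLocalRing.ResidueField A) M)]
variable {rb : Γℚ →* GL (Fin 2) (ZMod q)} {a₀ : ℕ} (F : AtP.LocalField q A rb a₀)

local notation "kA" => IsLocalRing.ResidueField A

variable (X : Degen (IsLocalRing.residue A) (emb M q hq hqM)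
  (modularFunctionFieldFullC (IsLocalRing.ResidueField A) M))

omit [NeZero q] [IsAlgClosed (IsLocalRing.ResidueField ↥A)] in
/-- A rational number lies in `F.M`. -/
theorem mem_M_of_rat {c : Qb} (hc : c ∈ Set.range (algebraMap ℚ Qb)) : c ∈ F.M := by
  obtain ⟨r, rfl⟩ := hc
  rw [eq_ratCast]
  exact SubfieldClass.ratCast_mem F.M r

/-- Rational integral functions are rational over `F.M`. -/
theorem ratInt_mem_R {m : ℕ} {g : FN (M * q) Qb} (hg : g ∈ X.ratIntOf m) :
    g ∈ (ratData M q hq hqM F).R := fun b n => by
  obtain ⟨a, ha, haQ⟩ := hg.2 b n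
  rw [ha]
  exact mem_M_of_rat q F haQ

variable (hA0 : X.A0 = A0 M q)
include hA hA0

omit [Fact (Nat.Prime q)] in
/-- The rational integral functions span the glued pairs. -/
theorem glueSp_le_span {m : ℕ} (hm : X.N0 ≤ m) :
    X.glueSp (fun _ => 1) m ≤
      Submodule.span kA ((fun g b => X.red b g) '' X.ratIntOf m) :=
  X.glueSp_le_span_of_gal hq hA (fun σ g => galAut M q σ • g) (galAut_rr M q hq hqM X hA0)
    (fun σ b f => emb_galAut M q hq hqM σ b f) (coeff_mem M q hq hqM) hm

/-- **Glued pairs lift to functions with coefficients in `F.M`.** -/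
theorem liftGlue {m : ℕ} (hm : X.N0 ≤ m) : X.LiftGlue (ratData M q hq hqM F) m :=
  X.liftGlue_of_span _ (fun _ hg => ratInt_mem_R M q hq hqM F X hg)
    (glueSp_le_span M q hq hqM hA X hA0 hm)

end Fermat.BAD.Inst

end
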