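import Fermat.Agent.BAD.Inst.Rat
import Fermat.Agent.BAD.Engine.Theorems
import Fermat.Agent.BAD.Mono.Discrete
import Fermat.Agent.BAD.Mono.Twist
import Fermat.Agent.JAC.FieldOfDef

/-!
# Presentations of classes fixed over the local field

A class fixed by the automorphisms fixing `F.M` has a unique representative `D ≤ l ∞` for the
least possible `l`, hence a fixed one; if `n` kills the class, a function with divisor `n D` and
leading coefficient `1` at `∞` is then fixed, so its inverse has coefficients in `F.M`.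
-/

set_option autoImplicit false

attribute [local instance 10000] SubalgebraClass.toAlgebra HahnSeries.powerSeriesAlgebra

noncomputable section

open ModularCurve AlgebraicCurve

namespace Fermat.BAD

open Fermat.FF Fermat.JAC Fermat.RED.Model

local notation "Qb" => AlgebraicClosure ℚ

variable {F : Type} [Field F] [Algebra (AlgebraicClosure ℚ) F] [FF.IsFunctionField Qb F]
variable {Γ : Type*} (P : Place Qb F) (co : ℤ → F →ₗ[Qb] Qb) (act : Γ → SemilinearAut Qb F)

/-- A class fixed by a set of automorphisms fixing the place `P` has a fixed representative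
bounded by `n P`. -/
theorem exists_fixed_rep_of_place (hP : ∀ τ, act τ • P = P) (hco : ∀ f, f ≠ 0 → co (P.ord f) f ≠ 0)
    (G : Set Γ) {x : Pic0 Qb F} (hfix : ∀ τ ∈ G, act τ • x = x) :
    ∃ (n : ℕ) (D : Divisor Qb F), IsCls D x ∧
      D ≤ Finsupp.single P (n : ℤ) ∧ ∀ τ ∈ G, act τ • D = D := by
  classical
  obtain ⟨D₀, hD₀⟩ := exists_isCls x
  have hdeg0 : Divisor.degree D₀ = 0 := Divisor.mem_degZero.mp hD₀.1
  set V : ℕ → Submodule Qb (F) := fun n =>
    riemannRochSpace (Finsupp.single (P) (n : ℤ) - D₀) with hV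
  have hdegV : ∀ n : ℕ, Divisor.degree (Finsupp.single (P) (n : ℤ) - D₀) = n := fun n => by
    rw [map_sub, hdeg0, Divisor.degree_single, deg_eq_one, sub_zero]
    simp
  have hex : ∃ n, ∃ h ∈ V n, h ≠ 0 := by
    obtain ⟨h, hh, hh0, -⟩ := exists_exact_ord
      (D := Finsupp.single (P) ((2 * genusFF Qb (F) : ℕ) : ℤ) - D₀) ∅
      (by rw [hdegV]; push_cast; simp)
    exact ⟨_, h, hh, hh0⟩
  obtain ⟨n, ⟨h, hh, hh0⟩, hmin⟩ :
      ∃ n, (∃ h ∈ V n, h ≠ 0) ∧ ∀ k < n, ¬ ∃ h ∈ V k, h ≠ 0 :=
    ⟨Nat.find hex, Nat.find_spec hex, fun k hk => Nat.find_min hex hk⟩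
  -- `n` is least, so every member has the same order at `P` and the space is a line
  set a : ℤ := D₀ (P) - (n : ℤ) with ha
  have horder : ∀ f ∈ V n, f ≠ 0 → (P).ord f = a := by
    intro f hf hf0
    have hge : a ≤ (P).ord f := by
      have := (mem_riemannRochSpace.mp hf (P)).le_ord hf0
      simp only [Finsupp.sub_apply, Finsupp.single_eq_same] at this
      omega
    by_contra hne
    rcases Nat.eq_zero_or_pos n with h0 | hpos
    · subst h0
      have hsum : Divisor.degree (divOf Qb f + (Finsupp.single (P) ((0 : ℕ) : ℤ) - D₀)) = 0 := by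
        rw [map_add, degree_divOf, hdegV, Nat.cast_zero, add_zero]
      have hnn : 0 ≤ divOf Qb f + (Finsupp.single (P) ((0 : ℕ) : ℤ) - D₀) :=
        Finsupp.le_def.mpr fun v => by
          have := (mem_riemannRochSpace.mp hf v).le_ord hf0
          simp only [Finsupp.coe_zero, Pi.zero_apply, Finsupp.add_apply, divOf_apply]
          omega
      have := congrArg (fun E : Divisor Qb (F) => E (P))
        (FF.eq_zero_of_nonneg_of_degree hnn hsum)
      simp only [Finsupp.add_apply, Finsupp.sub_apply, Finsupp.single_eq_same, divOf_apply,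
        Finsupp.coe_zero, Pi.zero_apply] at this
      omega
    · refine hmin (n - 1) (by omega) ⟨f, mem_riemannRochSpace.mpr fun v => ?_, hf0⟩
      rcases eq_or_ne v (P) with rfl | hv
      · refine ordGE_iff.mpr (.inr ?_)
        simp only [Finsupp.sub_apply, Finsupp.single_eq_same]
        omega
      · refine (mem_riemannRochSpace.mp hf v).mono ?_
        simp [Finsupp.single_eq_of_ne hv]
  have hco : ∀ f ∈ V n, co a f = 0 → f = 0 := fun f hf h0 => by
    by_contra hf0
    exact hco f hf0 (horder f hf hf0 ▸ h0)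
  have huniq : ∀ h' ∈ V n, ∃ c : Qb, h' = c • h := fun h' hh' => by
    have hca : co a h ≠ 0 := fun e => hh0 (hco h hh e)
    refine ⟨co a h' / co a h, sub_eq_zero.mp
      (hco _ (sub_mem hh' (Submodule.smul_mem _ _ hh)) ?_)⟩
    rw [map_sub, map_smul, smul_eq_mul, div_mul_cancel₀ _ hca, sub_self]
  refine ⟨n, D₀ + divOf Qb h⁻¹, hD₀.add_divOf (inv_ne_zero hh0), fun v => ?_, fun τ hτ => ?_⟩
  · have h1 := (mem_riemannRochSpace.mp hh v).le_ord hh0
    simp only [Finsupp.sub_apply] at h1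
    simp only [Finsupp.add_apply, divOf_apply, v.ord_inv]
    omega
  · set D := D₀ + divOf Qb h⁻¹ with hD
    have hDcls : IsCls D x := hD₀.add_divOf (inv_ne_zero hh0)
    have hcls : IsCls (act τ • D) x := by
      have h1 := hDcls.smul (act τ)
      have h2 : act τ • x = x := hfix τ hτ
      rwa [h2] at h1
    obtain ⟨φ, hφ, hφD⟩ : ∃ φ : F, φ ≠ 0 ∧ divOf Qb φ = act τ • D - D := by
      obtain ⟨φ, hφ, hφD⟩ := (hcls.add hDcls.neg).exists_div (n := 1)
        (by rw [one_nsmul, add_neg_cancel])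
      exact ⟨φ, hφ, by rw [hφD, one_nsmul, sub_eq_add_neg]⟩
    have hmem : φ⁻¹ * h ∈ V n := mem_riemannRochSpace.mpr fun v => ordGE_iff.mpr (.inr (by
      rw [v.ord_mul (inv_ne_zero hφ) hh0, v.ord_inv, ← divOf_apply φ v, hφD]
      have hle : (act τ • D) v ≤ Finsupp.single (P) (n : ℤ) v := by
        rw [SemilinearAut.divisor_smul_apply, ← hP τ]
        have hb : ∀ w, D w ≤ Finsupp.single (P) (n : ℤ) w := fun w => by
          have h1 := (mem_riemannRochSpace.mp hh w).le_ord hh0
          simp only [Finsupp.sub_apply] at h1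
          simp only [hD, Finsupp.add_apply, divOf_apply, w.ord_inv]
          omega
        refine (hb _).trans (le_of_eq ?_)
        rw [Finsupp.single_apply, Finsupp.single_apply]
        refine if_congr ⟨fun e => ?_, fun e => ?_⟩ rfl rfl
        · rw [e, smul_inv_smul]
        · rw [← e, inv_smul_smul]
      simp only [hD, Finsupp.sub_apply, Finsupp.add_apply, divOf_apply, v.ord_inv] at hle ⊢
      omega))
    obtain ⟨c, hc⟩ := huniq _ hmem
    have hφc : φ⁻¹ = algebraMap Qb _ c := mul_right_cancel₀ hh0 (by rw [hc, Algebra.smul_def])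
    rw [← sub_eq_zero, ← hφD]
    ext v
    have := congrArg v.ord hφc
    rw [v.ord_inv, FF.ord_algebraMap, neg_eq_zero] at this
    rw [divOf_apply, this]
    rfl

/-- A torsion class fixed by `G` has a presentation, when rationality is invariance under `G`. -/
theorem exists_pres_of_place {A : ValuationSubring Qb} [IsAlgClosed (IsLocalRing.ResidueField A)]
    {ι : Bool → F →+* LaurentSeries Qb}
    {K : IntermediateField (IsLocalRing.ResidueField A)
      (LaurentSeries (IsLocalRing.ResidueField A))}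
    [FF.IsFunctionField (IsLocalRing.ResidueField A) K]
    (X : Degen (IsLocalRing.residue A) ι K) (R : RatData (IsLocalRing.residue A) ι)
    (hP : ∀ τ, act τ • P = P) (hco : ∀ f, f ≠ 0 → co (P.ord f) f ≠ 0)
    (G : Set Γ) (hR : ∀ f, f ∈ R.R ↔ ∀ τ ∈ G, act τ • f = f)
    (hco1 : ∀ τ ∈ G, ∀ a f, co a f = 1 → co a (act τ • f) = 1)
    (hA0P : 0 < X.A0 P) (hA0fix : ∀ τ ∈ G, act τ • X.A0 = X.A0)
    (hmem : ∀ τ (D : Divisor Qb F), act τ • D = D →
      ∀ f ∈ riemannRochSpace D, act τ • f ∈ riemannRochSpace D)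
    (hspan : ∀ (V : Submodule Qb F) [FiniteDimensional Qb V],
      (∀ τ ∈ G, ∀ f ∈ V, act τ • f ∈ V) →
        V ≤ Submodule.span Qb {f | f ∈ V ∧ ∀ τ ∈ G, act τ • f = f})
    {n : ℕ} {x : Pic0 Qb F} (hx : n • x = 0) (hfix : ∀ τ ∈ G, act τ • x = x) :
    ∃ (l : ℕ) (D : Divisor.degZero (K := Qb) (F := F)) (y : F) (c1 c0 : Qb),
      Pic0.mk D = x ∧ X.Pres R n l (D : Divisor Qb F) y c1 c0 := by
  classical
  obtain ⟨l, D, hD, hle, hDfix⟩ := exists_fixed_rep_of_place P co act hP hco G hfix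
  obtain ⟨y₀, hy₀, hdiv₀⟩ := hD.exists_div hx
  -- normalise the leading coefficient, so that `G` fixes `y`
  set a : ℤ := (P).ord y₀
  set c : Qb := co a y₀
  have hc : c ≠ 0 := hco y₀ hy₀
  set y := c⁻¹ • y₀
  have hy : y ≠ 0 := smul_ne_zero (inv_ne_zero hc) hy₀
  have hdiv : divOf Qb y = n • D := by
    refine Eq.trans ?_ hdiv₀
    ext v
    simp only [y, divOf_apply]
    rw [Algebra.smul_def,
      v.ord_mul ((_root_.map_ne_zero _).mpr (inv_ne_zero hc)) hy₀, FF.ord_algebraMap, zero_add]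
  have hlead : co a y = 1 := by
    rw [map_smul, smul_eq_mul]
    exact inv_mul_cancel₀ hc
  have hyfix : ∀ τ ∈ G, act τ • y = y := fun τ hτ => by
    have hd : divOf Qb (act τ • y) = divOf Qb y := by
      rw [Fermat.JAC.divOf_smul, hdiv, smul_comm, hDfix τ hτ]
    obtain ⟨e, -, he⟩ := exists_eq_smul_of_divOf_eq ((smul_ne_zero_iff_ne _).mpr hy) hy hd
    have h1 := congrArg (co a) he
    rw [← Algebra.smul_def, LinearMap.map_smul (co a) e y, hlead, smul_eq_mul, mul_one] at h1
    rw [hco1 τ hτ a y hlead] at h1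
    rw [he, ← h1, map_one, one_mul]
  have hyR : y⁻¹ ∈ R.R :=
    ((hR _)).mpr fun τ hτ => by rw [smul_inv'', hyfix τ hτ]
  have hle' : ∀ v, D v ≤ (l : ℤ) * X.A0 v := fun v => by
    refine (Finsupp.le_def.mp hle v).trans ?_
    rw [Finsupp.single_apply]
    split
    · next h =>
      subst h
      have := hA0P
      nlinarith
    · exact mul_nonneg (Int.natCast_nonneg l) (Finsupp.le_def.mp X.A0_nonneg v)
  have hyrr : y⁻¹ ∈ riemannRochSpace ((n * l) • X.A0) := mem_riemannRochSpace.mpr fun v =>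
    ordGE_iff.mpr (.inr (by
      rw [v.ord_inv, ← divOf_apply y v, hdiv]
      simp only [Finsupp.smul_apply, nsmul_eq_mul, Nat.cast_mul]
      have := mul_le_mul_of_nonneg_left (hle' v) (Int.natCast_nonneg n)
      linarith))
  -- rational scalings to nonzero reductions
  have hsc : ∀ b, ∃ e ∈ R.M, X.Prim b (e • y) := fun b => by
    obtain ⟨a', ha', hb'⟩ := X.bdd b _ _ hyrr
    obtain ⟨e, heM, he, hp, -⟩ :=
      X.exists_rat_prim R b hyR (inv_ne_zero hy) ha' hb'
    refine ⟨e⁻¹, R.M.inv_mem heM, ?_⟩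
    have := (X.prim_inv hp).1
    rwa [show (e • y⁻¹)⁻¹ = e⁻¹ • y by
      rw [Algebra.smul_def, Algebra.smul_def, mul_inv, inv_inv, map_inv₀]] at this
  obtain ⟨c1, hc1M, hc1⟩ := hsc true
  obtain ⟨c0, hc0M, hc0⟩ := hsc false
  refine ⟨l, ⟨D, hD.1⟩, y, c1, c0, hD.2, hy, hdiv, hyR, hle', hc1M, hc0M, hc1, hc0, fun m => ?_⟩
  have : FiniteDimensional Qb (X.sect D m) := FF.instFiniteRiemannRochSpace _
  refine (hspan (X.sect D m) fun τ hτ f hf => ?_).trans
    (Submodule.span_mono fun f hf => ⟨hf.1, ((hR _)).mpr hf.2⟩)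
  refine hmem τ _ ?_ _ hf
  rw [smul_add, hDfix τ hτ, smul_comm, hA0fix τ hτ]

end Fermat.BAD

namespace Fermat.BAD.Inst

open Fermat.FF Fermat.MC Fermat.JAC Fermat.RED.Model Fermat.BAD.X0

local notation "Qb" => AlgebraicClosure ℚ
local notation "Γℚ" => (AlgebraicClosure ℚ ≃ₐ[ℚ] AlgebraicClosure ℚ)

variable (M q : ℕ) [NeZero M] [NeZero q] [Fact q.Prime] (hq : q.Prime) (hqM : ¬ q ∣ M)
variable [FF.IsFunctionField Qb (FN (M * q) Qb)]

omit [Fact (Nat.Prime q)] in
/-- The leading coefficient at `∞` is nonzero. -/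
theorem coeffInf_ord_inf_ne_zero {f : FN (M * q) Qb} (hf : f ≠ 0) :
    coeffInf M q ((inf M q).ord f) f ≠ 0 := by
  change (f : LaurentSeries Qb).coeff ((inf M q).ord f) ≠ 0
  rw [ord_inf]
  exact HahnSeries.coeff_order_eq_zero.not.mpr fun e => hf (Subtype.ext e)

variable {A : ValuationSubring (AlgebraicClosure ℚ)}
  [IsAlgClosed (IsLocalRing.ResidueField A)]
  [FF.IsFunctionField (IsLocalRing.ResidueField A) (FX (IsLocalRing.ResidueField A) M)]
variable {rb : Γℚ →* GL (Fin 2) (ZMod q)} {a₀ : ℕ} (F : AtP.LocalField q A rb a₀)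
variable (X : Degen (IsLocalRing.residue A) (emb M q hq hqM)
  (modularFunctionFieldFullC (IsLocalRing.ResidueField A) M))
variable (hA0 : X.A0 = A0 M q)
include hA0

/-- **Presentations exist.** A class of `J₀(M q)` killed by `n` and fixed by the automorphisms
fixing `F.M` has a presentation rational over `F`. -/
theorem exists_pres {n : ℕ} {x : JZero (M * q)} (hx : n • x = 0)
    (hfix : ∀ τ ∈ fixSet F.M, τ • x = x) :
    ∃ (l : ℕ) (D : Divisor.degZero (K := Qb) (F := FN (M * q) Qb))
      (y : FN (M * q) Qb) (c1 c0 : Qb),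
      Pic0.mk D = x ∧
        X.Pres (ratData M q hq hqM F) n l (D : Divisor Qb (FN (M * q) Qb)) y c1 c0 :=
  exists_pres_of_place (inf M q) (coeffInf M q) (galAut M q) X (ratData M q hq hqM F)
    (galAut_inf M q)
    (fun _ => coeffInf_ord_inf_ne_zero M q) (fixSet F.M) (fun _ => mem_ratData_R M q hq hqM F)
    (fun τ _ a f hf => by
      rw [show coeffInf M q a (galAut M q τ • f) = τ (coeffInf M q a f) from
        emb_galAut_coeff M q hq hqM τ true f a, hf, map_one])
    (hA0 ▸ A0_inf_pos M q) (fun τ _ => hA0.symm ▸ galAut_A0 M q τ)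
    (fun τ _ hD _ hf => hD ▸ FF.smul_mem_riemannRochSpace (galAut M q τ) hf)
    (fun V _ => le_span_galAut_fixed M q (fixSet F.M) V) hx hfix

end Fermat.BAD.Inst

end
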