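import Fermat.Agent.BAD.Inst.Galois
import Fermat.Agent.BAD.AtP.LocalDef
import Fermat.Agent.BAD.Wit.Threshold
import Fermat.Agent.RED.Spec.Galois

/-!
# The rationality data of the engine at `X₀ (M p)`

For a local field `F` the functions with both expansions over `F.M` are the functions fixed by the
automorphisms fixing `F.M`; elements of inertia preserving `F.M` act on coefficients compatibly
with both reductions.
-/

set_option autoImplicit false

attribute [local instance 10000] SubalgebraClass.toAlgebra HahnSeries.powerSeriesAlgebra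

noncomputable section

open ModularCurve AlgebraicCurve

namespace Fermat.BAD.Inst

open Fermat.MC Fermat.RED Fermat.RED.Model Fermat.BAD.X0

local notation "Qb" => AlgebraicClosure ℚ
local notation "Γℚ" => (AlgebraicClosure ℚ ≃ₐ[ℚ] AlgebraicClosure ℚ)

/-- The automorphisms fixing a subfield of `ℚ̄` pointwise. -/
def fixSet (K₀ : Subfield Qb) : Set Γℚ := {τ | ∀ c ∈ K₀, τ c = c}

/-- A ring automorphism of `ℚ̄` as a Galois element. -/
def toGal (τ : Qb ≃+* Qb) : Γℚ := AlgEquiv.ofRingEquiv (f := τ) fun r => by simp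

variable (M q : ℕ) [NeZero M] [NeZero q] [Fact q.Prime] (hq : q.Prime) (hqM : ¬ q ∣ M)
variable {A : ValuationSubring (AlgebraicClosure ℚ)}
variable {rb : Γℚ →* GL (Fin 2) (ZMod q)} {a₀ : ℕ} (F : AtP.LocalField q A rb a₀)

/-- The functions with both expansions over `F.M`. -/
def ratFns : Subring (FN (M * q) Qb) where
  carrier := {f | ∀ b n, (emb M q hq hqM b f).coeff n ∈ F.M}
  zero_mem' := fun b n => by rw [map_zero, HahnSeries.coeff_zero]; exact F.M.zero_mem
  one_mem' := fun b n => by
    rw [map_one, HahnSeries.coeff_one]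
    split
    · exact F.M.one_mem
    · exact F.M.zero_mem
  add_mem' := fun {f g} hf hg b n => by
    rw [map_add, HahnSeries.coeff_add]; exact F.M.add_mem (hf b n) (hg b n)
  neg_mem' := fun {f} hf b n => by
    rw [map_neg, HahnSeries.coeff_neg]; exact F.M.neg_mem (hf b n)
  mul_mem' := fun {f g} hf hg b n => by
    rw [map_mul, HahnSeries.coeff_mul]
    exact sum_mem fun ij _ => F.M.mul_mem (hf b _) (hg b _)

/-- A function has both expansions over `F.M` iff the automorphisms fixing `F.M` fix it. -/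
theorem mem_ratFns_iff_fixed {f : FN (M * q) Qb} :
    f ∈ ratFns M q hq hqM F ↔ ∀ τ ∈ fixSet F.M, galAut M q τ • f = f := by
  constructor
  · intro h τ hτ
    refine (emb M q hq hqM true).injective (HahnSeries.ext (funext fun n => ?_))
    rw [emb_galAut_coeff]
    exact hτ _ (h true n)
  · intro h b n
    refine F.fixM _ fun τ hτ => ?_
    conv_rhs => rw [← h (toGal τ) hτ]
    rw [emb_galAut_coeff]
    rfl

/-- Constants in `F.M` are rational. -/
theorem algebraMap_mem_ratFns {a : Qb} (ha : a ∈ F.M) :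
    algebraMap Qb (FN (M * q) Qb) a ∈ ratFns M q hq hqM F := fun b n => by
  rw [emb_algebraMap]
  have := Fermat.RED.coeff_algebraMap_mul a (1 : LaurentSeries Qb) n
  rw [mul_one] at this
  rw [this, HahnSeries.coeff_one]
  split
  · rwa [mul_one]
  · rw [mul_zero]; exact F.M.zero_mem

/-- The functions rational over the local field `F.M`, as `RatData`. -/
def ratData : RatData (IsLocalRing.residue A) (emb M q hq hqM) where
  M := F.M
  ρ := F.ρ
  ρ_mem := F.ρ_mem
  ρ_ne := F.ρ_ne
  ρ_A := F.ρ_A
  ρ_small := F.ρ_small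
  value := F.value
  surjM := F.surjM
  R := ratFns M q hq hqM F
  algebraMap_mem := fun _ ha => algebraMap_mem_ratFns M q hq hqM F ha
  coeff_mem := fun _ hf => hf

/-- `mem_ratFns_iff_fixed` for the rational functions of `ratData`. -/
theorem mem_ratData_R {f : FN (M * q) Qb} :
    f ∈ (ratData M q hq hqM F).R ↔ ∀ τ ∈ fixSet F.M, galAut M q τ • f = f :=
  mem_ratFns_iff_fixed M q hq hqM F

/-- `F.M` is the field of the constants fixed by the automorphisms fixing it. -/
theorem fixM_ratData :
    FixM (ratData M q hq hqM F) := F.fixM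

/-- The threshold conditions at the prime `q` hold for `ratData`. -/
theorem thresh_ratData
    [CharP (IsLocalRing.ResidueField A) q] :
    Thresh (ratData M q hq hqM F) q a₀ where
  a_pos := F.a_pos
  prime := hq
  char := CharP.cast_eq_zero _ q
  cast_ne := Nat.cast_ne_zero.mpr hq.ne_zero
  val_p := F.val_p

section Auto

variable [FF.IsFunctionField Qb (FN (M * q) Qb)]
  [IsAlgClosed (IsLocalRing.ResidueField A)]
  [FF.IsFunctionField (IsLocalRing.ResidueField A) (FX (IsLocalRing.ResidueField A) M)]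
variable (X : Degen (IsLocalRing.residue A) (emb M q hq hqM)
  (modularFunctionFieldFullC (IsLocalRing.ResidueField A) M))
variable (hA0 : X.A0 = A0 M q)
include hA0

omit [Fact (Nat.Prime q)] in
/-- The action preserves the bounded functions of the engine. -/
theorem galAut_rr (σ : Γℚ) (m : ℕ) (f : FN (M * q) Qb) (hf : f ∈ riemannRochSpace (m • X.A0)) :
    galAut M q σ • f ∈ riemannRochSpace (m • X.A0) := by
  have h := FF.smul_mem_riemannRochSpace (galAut M q σ) hf
  rwa [smul_comm, show galAut M q σ • X.A0 = X.A0 by rw [hA0, galAut_A0]] at h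

/-- An element of inertia preserving `F.M`, as an automorphism of coefficients for the engine. -/
def coeffAut (γ : Γℚ) (hγ : γ ∈ A.inertiaSubgroupIn ℚ) (hmaps : ∀ c ∈ F.M, γ c ∈ F.M) :
    Degen.CoeffAut X (ratData M q hq hqM F) where
  σ := (γ : Qb →+* Qb)
  s := galHom M q γ
  s_coeff := fun b f n => emb_galAut_coeff M q hq hqM γ b f n
  s_rr := fun m f hf => galAut_rr M q hq hqM X hA0 γ m f hf
  σ_mem := hmaps
  σ_A := fun _ hc => (apply_mem_of_inertia hγ hc).1
  σ_red := fun c _ => (apply_mem_of_inertia hγ c.2).2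

/-- The function map of `coeffAut` is the Galois action. -/
theorem coeffAut_s (γ : Γℚ) (hγ : γ ∈ A.inertiaSubgroupIn ℚ) (hmaps : ∀ c ∈ F.M, γ c ∈ F.M)
    (f : FN (M * q) Qb) :
    (coeffAut M q hq hqM F X hA0 γ hγ hmaps).s f = galAut M q γ • f := rfl

/-- The first order data of an element `σ` moving `ρ` to first order exactly, given nodes fixed by
`σ`. -/
def foData (F₁ : AtP.LocalField q A rb q) (σ : Γℚ)
    (move : ∀ a ∈ F₁.M, a ∈ A → (σ a - a) / F₁.ρ ^ 2 ∈ A) (lead : A)
    (lead_ne : IsLocalRing.residue A lead ≠ 0) (move_rho : (σ F₁.ρ - F₁.ρ) / F₁.ρ ^ 2 = (lead : Qb))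
    (hq3 : 3 ≤ q)
    (hnode : ∀ v ∈ X.S, ∀ i : ℤ, ∃ (c : ℕ) (U : FN (M * q) Qb),
      X.IsNodeFun (q : Qb) v i c U ∧ U ∈ (ratData M q hq hqM F₁).R ∧ galAut M q σ • U = U) :
    FOData X (ratData M q hq hqM F₁) q (q : Qb) where
  σ := (σ : Qb →+* Qb)
  s := galHom M q σ
  s_coeff := fun b f n => emb_galAut_coeff M q hq hqM σ b f n
  s_rr := fun m f hf => galAut_rr M q hq hqM X hA0 σ m f hf
  move := move
  c := lead
  c_ne := lead_ne
  move_rho := move_rho
  p_small := by
    have hv : (ratData M q hq hqM F₁).Val (q : Qb) (((q : ℤ) - 1) * q) := F₁.val_p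
    have h := hv.mul ((ratData M q hq hqM F₁).val_rho ((q + 1 : ℕ) : ℤ)).inv
    rw [zpow_natCast, ← div_eq_mul_inv] at h
    refine h.mem ?_
    have h3 : (3 : ℤ) ≤ q := by exact_mod_cast hq3
    push_cast
    nlinarith
  ϖ_mem := by simp
  ϖ_fix := map_natCast _ q
  ϖ_val := by
    have h : (ratData M q hq hqM F₁).Val (q : Qb) (((q : ℤ) - 1) * q) := F₁.val_p
    convert h using 1
    ring
  node := hnode

end Auto

end Fermat.BAD.Inst

end
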