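import Fermat.Agent.BAD.X0.Galois
import Fermat.Agent.HT.Cusp.Places
import Fermat.Agent.RED.Model.Separate

/-!
# The Galois action on the functions of level `M q` seen through the two expansions

The action on coefficients fixes the place of the expansion at `∞`; a finite dimensional stable
space of functions has a basis of functions fixed by any given set of automorphisms.

`Fermat.BAD.Inst` supplies the hypotheses of the engine for `X₀ (M q)` over a local field `F`:
* `Galois` (this file), `Rat`: the action and the rationality data `ratData`;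
* `Order`: every glued point has order twelve when there are no elliptic points;
* `Pairs`: glued pairs lift to rational functions;
* `Node`: rational functions of every scale at the glued points;
* `Norm`: the norms to level `M`;
* `Pres`: presentations of the torsion classes fixed over `F.M`.
-/

set_option autoImplicit false
set_option linter.unusedSectionVars false

attribute [local instance 10000] SubalgebraClass.toAlgebra HahnSeries.powerSeriesAlgebra

noncomputable section

open ModularCurve AlgebraicCurve

namespace Fermat.BAD.Inst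

open Fermat.FF Fermat.MC Fermat.RED.Model Fermat.BAD.X0

local notation "Qb" => AlgebraicClosure ℚ
local notation "Γℚ" => (AlgebraicClosure ℚ ≃ₐ[ℚ] AlgebraicClosure ℚ)

section Descent

variable {L F ι' : Type*} [Field L] [AddCommGroup F] [Module L F]

/-- A finite dimensional space stable under semilinear maps compatible with separating
functionals is spanned by the members fixed by all of them. -/
theorem le_span_fixed (c : ι' → F →ₗ[L] L) (hc : ∀ v, (∀ n, c n v = 0) → v = 0)
    {G : Type*} (σ : G → L →+* L) (g : G → F →+ F)
    (hg : ∀ t n v, c n (g t v) = σ t (c n v)) (V : Submodule L F) [FiniteDimensional L V]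
    (hV : ∀ t, ∀ v ∈ V, g t v ∈ V) :
    V ≤ Submodule.span L {v | v ∈ V ∧ ∀ t, g t v = v} := by
  classical
  obtain ⟨S, hS, hsep⟩ := exists_separating_finset c hc V
  let Φ : V →ₗ[L] (S → L) := LinearMap.pi fun n => (c n.1).comp V.subtype
  have hinj : Function.Injective Φ := (injective_iff_map_eq_zero Φ).mpr fun v hv =>
    Subtype.ext (hsep v.1 v.2 fun n hn => congrFun hv ⟨n, hn⟩)
  -- finitely many coefficients give coordinates on `V`; the dual basis is fixed
  have hdim : Module.finrank L V = Module.finrank L (S → L) := by
    rw [Module.finrank_fintype_fun_eq_card, Fintype.card_coe]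
    have := LinearMap.finrank_le_finrank_of_injective hinj
    rw [Module.finrank_fintype_fun_eq_card, Fintype.card_coe] at this
    omega
  have hsurj : Function.Surjective Φ :=
    (LinearMap.injective_iff_surjective_of_finrank_eq_finrank hdim).mp hinj
  choose e he using fun n : S => hsurj (Pi.single n 1)
  have hfix : ∀ n : S, (e n : F) ∈ {v | v ∈ V ∧ ∀ t, g t v = v} := fun n => by
    refine ⟨(e n).2, fun t => sub_eq_zero.mp ?_⟩
    refine hsep _ (V.sub_mem (hV t _ (e n).2) (e n).2) fun i hi => ?_
    have h : c i (e n : F) = Pi.single (M := fun _ => L) n 1 ⟨i, hi⟩ := congrFun (he n) ⟨i, hi⟩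
    rw [map_sub, hg, h, sub_eq_zero]
    rcases eq_or_ne (⟨i, hi⟩ : S) n with rfl | hne
    · rw [Pi.single_eq_same, map_one]
    · rw [Pi.single_eq_of_ne hne, map_zero]
  intro v hv
  have hvsum : (⟨v, hv⟩ : V) = ∑ n : S, c n.1 v • e n := by
    refine hinj (funext fun m => ?_)
    rw [map_sum, Finset.sum_apply]
    simp only [map_smul, Pi.smul_apply, he, Pi.single_apply, smul_eq_mul, mul_ite,
      mul_one, mul_zero, Finset.sum_ite_eq, Finset.mem_univ, if_true]
    rfl
  rw [show v = ∑ n : S, c n.1 v • (e n : F) by
    simpa using congrArg Subtype.val hvsum]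
  exact Submodule.sum_mem _ fun n _ => Submodule.smul_mem _ _ (Submodule.subset_span (hfix n))

end Descent

variable (M q : ℕ) [NeZero M] [NeZero q]

variable [FF.IsFunctionField Qb (FN (M * q) Qb)]

/-- The expansion at `∞` as a map of algebras. -/
def psiInf : FN (M * q) Qb →ₐ[Qb] LaurentSeries Qb := (FN (M * q) Qb).val

/-- The expansion of `j (z)` at `∞`. -/
theorem psiInf_aj : psiInf M q (aj M q) = jqModC Qb := by
  change ((heckeAlphaBar Qb M q (jL M Qb) : FN (M * q) Qb) : LaurentSeries Qb) = _
  rw [coe_heckeAlphaBar]
  exact coe_jL M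

/-- The expansion at `∞` has a pole for some function, so defines a place. -/
theorem seriesPole_inf : HT.Cusp.SeriesPole (psiInf M q) := ⟨aj M q, fun hm => by
  rw [psiInf_aj, HT.Cusp.mem_regSeries_iff_order (ModularCurve.jqModC_ne_zero_of_nontrivial Qb),
    HT.Cusp.order_jqModC] at hm
  omega⟩

/-- The place of the cusp `∞`, given by the expansion there. -/
def inf : Place Qb (FN (M * q) Qb) := HT.Cusp.seriesPlace (seriesPole_inf M q)

/-- The order at `∞` is the order of the expansion. -/
theorem ord_inf (f : FN (M * q) Qb) : (inf M q).ord f = (f : LaurentSeries Qb).order :=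
  HT.Cusp.ord_seriesPlace (seriesPole_inf M q) (t := aj M q)
    (by rw [psiInf_aj, HT.Cusp.order_jqModC]) f

/-- An injective map of coefficients keeps the order of a series. -/
theorem order_coeffMap {R S : Type*} [CommRing R] [CommRing S] (σ : R →+* S)
    (hσ : Function.Injective σ) (x : LaurentSeries R) : (coeffMap σ x).order = x.order := by
  rcases eq_or_ne x 0 with rfl | hx
  · rw [map_zero, HahnSeries.order_zero, HahnSeries.order_zero]
  have h1 : σ (x.coeff x.order) ≠ 0 :=
    (map_ne_zero_iff _ hσ).mpr (by rwa [ne_eq, HahnSeries.coeff_order_eq_zero])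
  refine le_antisymm (HahnSeries.order_le_of_coeff_ne_zero (by rwa [coeffMap_coeff])) ?_
  have h0 : coeffMap σ x ≠ 0 := fun h => h1 (by rw [← coeffMap_coeff, h, HahnSeries.coeff_zero])
  refine (HahnSeries.le_order_iff_forall h0).mpr fun n hn => ?_
  rw [coeffMap_coeff, HahnSeries.coeff_eq_zero_of_lt_order hn, map_zero]

/-- The action fixes the cusp `∞`. -/
theorem galAut_inf (σ : Γℚ) : galAut M q σ • inf M q = inf M q :=
  smul_place_eq_of_ord _ fun f => by
    rw [ord_inf, ord_inf, coe_galAut_smul]
    exact order_coeffMap _ (RingHom.injective _) _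

/-- `∞` is in the support of `A₀`. -/
theorem A0_inf_pos : 0 < A0 M q (inf M q) := by
  simp only [A0, Finsupp.add_apply, poleDiv_apply]
  have h1 : (inf M q).ord (aj M q) = -1 := by
    rw [ord_inf, ← HT.Cusp.order_jqModC (K := Qb)]
    exact congrArg HahnSeries.order (psiInf_aj M q)
  rw [h1]
  have := le_max_right (-(inf M q).ord (bj M q)) 0
  simp
  omega

/-- The coefficient at `n` of the expansion at `∞`. -/
def coeffInf (n : ℤ) : FN (M * q) Qb →ₗ[Qb] Qb where
  toFun f := (f : LaurentSeries Qb).coeff n
  map_add' f g := by rw [AddMemClass.coe_add, HahnSeries.coeff_add]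
  map_smul' c f := by
    rw [Algebra.smul_def, MulMemClass.coe_mul, RingHom.id_apply, smul_eq_mul]
    exact Fermat.RED.coeff_algebraMap_mul c _ n

/-- A stable finite dimensional space is spanned by the functions fixed by a set of
automorphisms. -/
theorem le_span_galAut_fixed (G : Set Γℚ) (V : Submodule Qb (FN (M * q) Qb))
    [FiniteDimensional Qb V]
    (hV : ∀ σ ∈ G, ∀ f ∈ V, galAut M q σ • f ∈ V) :
    V ≤ Submodule.span Qb {f | f ∈ V ∧ ∀ σ ∈ G, galAut M q σ • f = f} := by
  have h := le_span_fixed (coeffInf M q)
    (fun f hf => Subtype.ext (HahnSeries.ext (funext fun n => hf n)))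
    (fun t : G => ((t.1 : Γℚ) : Qb →+* Qb)) (fun t : G => (galHom M q t.1).toAddMonoidHom)
    (fun t n v => (congrArg (fun z : LaurentSeries Qb => z.coeff n)
      (coe_arithmeticGalois_smul (modularFunctionFieldFull (M * q)) t.1 v)).trans
        (coeffMap_coeff _ _ _)) V (fun t v hv => hV t.1 t.2 v hv)
  exact h.trans (Submodule.span_mono fun f hf => ⟨hf.1, fun σ hσ => hf.2 ⟨σ, hσ⟩⟩)

end Fermat.BAD.Inst

end
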